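import Fermat.Agent.SiegelShidlovskii.Values

/-!
# Values of series with geometrically bounded coefficients

A series with `|c k| ≤ C ^ (k + 1)` converges for `C |x| < 1`, is as small there as its order says,
and does not vanish at small `x ≠ 0` unless it is zero.
-/

set_option autoImplicit false

noncomputable section

namespace FA.GFunctionValues

open Finset
open FA.SiegelShidlovskii (HasVal val formSeries)

variable {C : ℕ} {g : PowerSeries ℚ} {x : ℝ}

theorem abs_coeff_le (hg : ∀ k, |PowerSeries.coeff k g| ≤ (C : ℚ) ^ (k + 1)) (k : ℕ) :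
    |((PowerSeries.coeff k g : ℚ) : ℝ)| ≤ (C : ℝ) * (C : ℝ) ^ k := by
  have h := hg k
  rw [← Rat.cast_le (K := ℝ), Rat.cast_abs, Rat.cast_pow, Rat.cast_natCast, pow_succ'] at h
  exact h

theorem hasVal_of_bound (hg : ∀ k, |PowerSeries.coeff k g| ≤ (C : ℚ) ^ (k + 1))
    (hx : (C : ℝ) * |x| < 1) : HasVal g x (val g x) := by
  refine (Summable.of_norm_bounded
    ((summable_geometric_of_lt_one (by positivity) hx).mul_left (C : ℝ)) fun k => ?_).hasSum
  rw [Real.norm_eq_abs, abs_mul, abs_pow, mul_pow, ← mul_assoc]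
  exact mul_le_mul_of_nonneg_right (abs_coeff_le hg k) (by positivity)

theorem hasVal_form {m : ℕ} {f : Fin m → PowerSeries ℚ}
    (hf : ∀ j, HasVal (f j) x (val (f j) x)) (P : Fin m → Polynomial ℚ) :
    HasVal (formSeries f P) x
      (∑ j, Polynomial.eval₂ (Rat.castHom ℝ) x (P j) * val (f j) x) := by
  have h := hasSum_sum (s := univ) fun j (_ : j ∈ univ) => (hf j).polynomial_mul (P j)
  refine h.congr_fun fun k => ?_
  simp [formSeries, Finset.sum_mul]

/-- A series vanishing to order `G₀` has a small value. -/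
theorem abs_le_of_geometric {v A B : ℝ} {G₀ : ℕ} (hB : 0 ≤ B) (hv : HasVal g x v)
    (hzero : ∀ i < G₀, PowerSeries.coeff i g = 0)
    (hc : ∀ i, |((PowerSeries.coeff i g : ℚ) : ℝ)| ≤ A * B ^ i) (hx : B * |x| ≤ 1 / 2) :
    |v| ≤ 2 * A * (B * |x|) ^ G₀ := by
  have hA : 0 ≤ A := by simpa using (abs_nonneg _).trans (hc 0)
  have hshift : HasSum (fun i => ((PowerSeries.coeff (i + G₀) g : ℚ) : ℝ) * x ^ (i + G₀)) v := by
    have h1 := (hasSum_nat_add_iff' (f := fun j => ((PowerSeries.coeff j g : ℚ) : ℝ) * x ^ j)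
      G₀).2 hv
    rwa [Finset.sum_eq_zero (fun j hj => by rw [hzero j (mem_range.1 hj)]; simp), sub_zero] at h1
  rw [← hshift.tsum_eq, ← Real.norm_eq_abs]
  refine tsum_of_norm_bounded (g := fun i => A * (B * |x|) ^ G₀ * (1 / 2 : ℝ) ^ i) ?_ fun i => ?_
  · have h := hasSum_geometric_two.mul_left (A * (B * |x|) ^ G₀)
    rw [show A * (B * |x|) ^ G₀ * 2 = 2 * A * (B * |x|) ^ G₀ by ring] at h
    simpa [one_div, inv_pow] using h
  · rw [Real.norm_eq_abs, abs_mul, abs_pow]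
    calc |((PowerSeries.coeff (i + G₀) g : ℚ) : ℝ)| * |x| ^ (i + G₀)
        ≤ A * B ^ (i + G₀) * |x| ^ (i + G₀) := by gcongr; exact hc _
      _ = A * (B * |x|) ^ G₀ * (B * |x|) ^ i := by ring
      _ ≤ A * (B * |x|) ^ G₀ * (1 / 2 : ℝ) ^ i := by gcongr

/-- **A nonzero series has nonzero values at small points.** -/
theorem exists_val_lower (hg : ∀ k, |PowerSeries.coeff k g| ≤ (C : ℚ) ^ (k + 1)) (hne : g ≠ 0) :
    ∃ (δ c : ℝ) (k : ℕ), 0 < δ ∧ 0 < c ∧ ∀ x : ℝ, |x| ≤ δ → c * |x| ^ k ≤ |val g x| := by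
  obtain ⟨k, hk, hmin⟩ : ∃ k, PowerSeries.coeff k g ≠ 0 ∧
      ∀ i < k, PowerSeries.coeff i g = 0 := by
    classical
    have hex : ∃ k, PowerSeries.coeff k g ≠ 0 := by
      by_contra hall
      push Not at hall
      exact hne (PowerSeries.ext fun k => by rw [hall k, map_zero])
    exact ⟨Nat.find hex, Nat.find_spec hex, fun i hi => not_not.1 (Nat.find_min hex hi)⟩
  obtain ⟨a, ha⟩ : ∃ a : ℝ, a = ((PowerSeries.coeff k g : ℚ) : ℝ) := ⟨_, rfl⟩
  have ha0 : 0 < |a| := abs_pos.2 (ha ▸ Rat.cast_ne_zero.2 hk)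
  obtain ⟨D, hD⟩ : ∃ D : ℝ, D = 4 * (C : ℝ) * (C : ℝ) ^ (k + 1) + 2 * C + 1 := ⟨_, rfl⟩
  have hD0 : 0 < D := by rw [hD]; positivity
  refine ⟨min (|a| / D) (1 / D), |a| / 2, k, lt_min (by positivity) (by positivity),
    by positivity, fun x hx => ?_⟩
  have hx1 : |x| * D ≤ |a| := (le_div_iff₀ hD0).1 (hx.trans (min_le_left _ _))
  have hx2 : |x| * D ≤ 1 := (le_div_iff₀ hD0).1 (hx.trans (min_le_right _ _))
  have hC0 : 0 ≤ 4 * (C : ℝ) * (C : ℝ) ^ (k + 1) := by positivity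
  have hCD : 2 * (C : ℝ) ≤ D := by linarith
  have hCx : (C : ℝ) * |x| ≤ 1 / 2 := by
    have h1 : |x| * (2 * (C : ℝ)) ≤ |x| * D :=
      mul_le_mul_of_nonneg_left hCD (abs_nonneg x)
    linarith
  obtain ⟨g', hg'⟩ : ∃ g' : PowerSeries ℚ,
      g' = PowerSeries.mk fun i => if i ≤ k then 0 else PowerSeries.coeff i g := ⟨_, rfl⟩
  have hv : HasVal g' x (val g x - a * x ^ k) := by
    refine ((hasVal_of_bound hg (by linarith)).sub (hasSum_ite_eq k (a * x ^ k))).congr_fun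
      fun i => ?_
    rw [hg', PowerSeries.coeff_mk]
    rcases lt_trichotomy i k with hi | rfl | hi
    · simp [hi.le, hi.ne, hmin i hi]
    · simp [ha]
    · simp [hi.not_ge, hi.ne']
  have hb : |val g x - a * x ^ k| ≤ 2 * (C : ℝ) * ((C : ℝ) * |x|) ^ (k + 1) := by
    refine abs_le_of_geometric (Nat.cast_nonneg C) hv (fun i hi => ?_) (fun i => ?_) hCx
    · rw [hg', PowerSeries.coeff_mk, if_pos (by omega)]
    · rw [hg', PowerSeries.coeff_mk]
      split_ifs
      · rw [Rat.cast_zero, abs_zero]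
        positivity
      · exact abs_coeff_le hg i
  have h2 : 2 * (C : ℝ) * ((C : ℝ) * |x|) ^ (k + 1) ≤ |a| / 2 * |x| ^ k := by
    rw [mul_pow, pow_succ |x|,
      show 2 * (C : ℝ) * ((C : ℝ) ^ (k + 1) * (|x| ^ k * |x|)) =
        |x| * (4 * (C : ℝ) * (C : ℝ) ^ (k + 1)) / 2 * |x| ^ k by ring]
    refine mul_le_mul_of_nonneg_right ?_ (by positivity)
    have h3 : |x| * (4 * (C : ℝ) * (C : ℝ) ^ (k + 1)) ≤ |x| * D :=
      mul_le_mul_of_nonneg_left (by rw [hD]; linarith [Nat.cast_nonneg (α := ℝ) C]) (abs_nonneg x)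
    linarith
  have h4 : |a * x ^ k| = |a| * |x| ^ k := by rw [abs_mul, abs_pow]
  have h5 := abs_sub_abs_le_abs_sub (a * x ^ k) (val g x)
  rw [abs_sub_comm (a * x ^ k), h4] at h5
  linarith

end FA.GFunctionValues
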