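import Fermat.Agent.GFunctions.Pade
import Fermat.Agent.GFunctionValues.Values

/-!
# The iterates of a linear form and their denominators

For `R = ∑ P j f j` the vector `rowIter T A P k` has the form `T ^ k R⁽ᵏ⁾`. It is a combination of
derivatives of the `P j` and the `solIter T A i`, so a common denominator `D` of the latter over
`i!` makes `D rowIter T A P k / k!` integral.
-/

set_option autoImplicit false

noncomputable section

namespace FA.GFunctionValues

open Polynomial Finset
open scoped Matrix Nat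
open FA.GFunctions (vIter vStep solIter)
open FA.SiegelShidlovskii (l1 l1_nonneg l1_eq_sum l1_add_le l1_sum_le l1_mul_le l1_derivative_le
  IsSolution formSeries vecDeriv mul_derivative_formSeries)

variable {R : Type*} [CommRing R] {m : ℕ}

/-- The iterates of the row of a linear form. -/
def rowIter (T : R[X]) (A : Matrix (Fin m) (Fin m) R[X]) (P : Fin m → R[X]) (k : ℕ) :
    Fin m → R[X] :=
  vIter T (-A.transpose) 0 P k

theorem rowIter_succ (T : R[X]) (A : Matrix (Fin m) (Fin m) R[X]) (P : Fin m → R[X]) (k : ℕ)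
    (j : Fin m) : rowIter T A P (k + 1) j =
      vecDeriv T A (rowIter T A P k) j - (k : R[X]) * derivative T * rowIter T A P k j := by
  simp only [rowIter, vIter, vStep, vecDeriv, Matrix.mulVec, dotProduct, Matrix.neg_apply,
    Matrix.transpose_apply, neg_mul, Finset.sum_neg_distrib, Nat.zero_add]
  rw [Finset.sum_congr rfl fun i _ => mul_comm (A i j) _]
  ring

/-- The iterates by the derivatives of the coefficients and of the solutions. -/
theorem rowIter_eq (T : R[X]) (A : Matrix (Fin m) (Fin m) R[X]) (P : Fin m → R[X]) :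
    ∀ (k : ℕ) (j : Fin m), rowIter T A P k j = ∑ i ∈ range (k + 1), (k.choose i : R[X]) *
      ∑ r, T ^ i * derivative^[i] (P r) * solIter T A (k - i) r j
  | 0, j => by simp [rowIter, vIter, solIter, Matrix.one_apply]
  | k + 1, j => by
    rw [rowIter_succ, vecDeriv]
    simp only [rowIter_eq T A P k]
    rw [Finset.sum_choose_succ_mul (fun a b => ∑ r, T ^ a * derivative^[a] (P r) *
      solIter T A b r j) k, ← Finset.sum_add_distrib, map_sum, Finset.mul_sum, Finset.mul_sum]
    simp only [Finset.sum_mul]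
    rw [Finset.sum_comm (s := (univ : Finset (Fin m))), ← Finset.sum_add_distrib,
      ← Finset.sum_sub_distrib]
    refine Finset.sum_congr rfl fun a ha => ?_
    rw [Finset.mem_range] at ha
    obtain ⟨b, rfl⟩ : ∃ b, k = a + b := ⟨k - a, by omega⟩
    rw [show a + b + 1 - a = b + 1 by omega, Nat.add_sub_cancel_left, derivative_mul,
      derivative_natCast, zero_mul, zero_add, map_sum]
    simp only [Finset.mul_sum, Finset.sum_mul]
    rw [Finset.sum_comm (s := (univ : Finset (Fin m))) (t := (univ : Finset (Fin m))),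
      ← Finset.sum_add_distrib, ← Finset.sum_sub_distrib, ← Finset.sum_add_distrib]
    refine Finset.sum_congr rfl fun r _ => ?_
    simp only [solIter, Matrix.add_apply, Matrix.sub_apply, Matrix.smul_apply, Matrix.map_apply,
      smul_eq_mul, Matrix.mul_apply, mul_assoc, ← Finset.mul_sum, derivative_mul,
      Function.iterate_succ_apply']
    have h := FA.GFunctions.mul_derivative_pow_self T a
    push_cast
    linear_combination ((a + b).choose a : R[X]) * derivative^[a] (P r) *
      solIter T A b r j * h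

theorem l1_C_mul (z : ℤ) (P : ℤ[X]) : l1 (C z * P) = |(z : ℝ)| * l1 P := by
  rw [l1_eq_sum (C z * P) (Nat.lt_succ_of_le (natDegree_C_mul_le z P)), l1, Finset.mul_sum]
  refine Finset.sum_congr rfl fun i _ => ?_
  rw [coeff_C_mul, Int.cast_mul, abs_mul]

theorem l1_natCast_mul (z : ℕ) (P : ℤ[X]) : l1 ((z : ℤ[X]) * P) = (z : ℝ) * l1 P := by
  rw [← map_natCast (C : ℤ →+* ℤ[X]), l1_C_mul, Int.cast_natCast, Nat.abs_cast]

theorem l1_neg (P : ℤ[X]) : l1 (-P) = l1 P := by simp [l1]

/-- The growth of the derivatives of the solutions. -/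
theorem exists_l1_solIter_le (T : ℤ[X]) (A : Matrix (Fin m) (Fin m) ℤ[X]) :
    ∃ c : ℝ, 1 ≤ c ∧ ∀ (t : ℕ) (r j : Fin m), l1 (solIter T A t r j) ≤ c ^ t * (t ! : ℝ) := by
  obtain ⟨δ, hT, hA⟩ : ∃ δ, T.natDegree ≤ δ ∧ ∀ i j, (A i j).natDegree ≤ δ :=
    ⟨T.natDegree + ∑ i, ∑ j, (A i j).natDegree, Nat.le_add_right _ _, fun i j =>
      le_trans (le_trans (Finset.single_le_sum (f := fun j => (A i j).natDegree)
        (fun _ _ => Nat.zero_le _) (mem_univ j)) (Finset.single_le_sum
        (f := fun i => ∑ j, (A i j).natDegree) (fun _ _ => Nat.zero_le _) (mem_univ i)))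
        (Nat.le_add_left _ _)⟩
  obtain ⟨L, hL⟩ : ∃ L : ℝ, L = ∑ i, ∑ j, l1 (A i j) := ⟨_, rfl⟩
  have hL0 : 0 ≤ L := hL ▸ Finset.sum_nonneg fun _ _ => Finset.sum_nonneg fun _ _ => l1_nonneg _
  have hT0 := l1_nonneg T
  have hT1 := l1_nonneg (derivative T)
  refine ⟨l1 T * δ + l1 (derivative T) + L + 1, by
    have : 0 ≤ l1 T * (δ : ℝ) := by positivity
    linarith, ?_⟩
  suffices h : ∀ t r j, (solIter T A t r j).natDegree ≤ t * δ ∧
      l1 (solIter T A t r j) ≤ (l1 T * δ + l1 (derivative T) + L + 1) ^ t * (t ! : ℝ) from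
    fun t r j => (h t r j).2
  intro t
  induction t with
  | zero =>
    intro r j
    by_cases hrj : r = j <;> simp [solIter, Matrix.one_apply, hrj, l1]
  | succ t ih =>
    intro r j
    obtain ⟨B, hB⟩ : ∃ B : ℝ,
        B = (l1 T * δ + l1 (derivative T) + L + 1) ^ t * (t ! : ℝ) := ⟨_, rfl⟩
    simp only [← hB] at ih
    have hB0 : 0 ≤ B := (l1_nonneg _).trans (ih r j).2
    simp only [solIter, Matrix.add_apply, Matrix.sub_apply, Matrix.smul_apply, Matrix.map_apply,
      smul_eq_mul, Matrix.mul_apply]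
    refine ⟨?_, ?_⟩
    · refine (natDegree_add_le _ _).trans (max_le ((natDegree_sub_le _ _).trans (max_le ?_ ?_)) ?_)
      · refine natDegree_mul_le.trans ?_
        have := (natDegree_derivative_le (solIter T A t r j)).trans (Nat.sub_le _ _)
        have := (ih r j).1
        rw [Nat.succ_mul]
        omega
      · refine natDegree_mul_le.trans ?_
        have := (natDegree_derivative_le T).trans (Nat.sub_le _ _)
        have := (ih r j).1
        have : ((t : ℤ[X]) * derivative T).natDegree ≤ (derivative T).natDegree :=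
          natDegree_mul_le.trans (by rw [natDegree_natCast, Nat.zero_add])
        rw [Nat.succ_mul]
        omega
      · refine natDegree_sum_le_of_forall_le _ _ fun l _ => natDegree_mul_le.trans ?_
        have := hA l j
        have := (ih r l).1
        rw [Nat.succ_mul]
        omega
    · rw [sub_eq_add_neg]
      refine (l1_add_le _ _).trans ((add_le_add (l1_add_le _ _) (l1_sum_le _ _)).trans ?_)
      rw [l1_neg, mul_assoc (t : ℤ[X]), l1_natCast_mul]
      have h1 : l1 (T * derivative (solIter T A t r j)) ≤ l1 T * (((t * δ : ℕ) : ℝ) * B) := by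
        refine (l1_mul_le _ _).trans (mul_le_mul_of_nonneg_left ((l1_derivative_le _).trans ?_) hT0)
        exact mul_le_mul (Nat.cast_le.2 (ih r j).1) (ih r j).2 (l1_nonneg _) (Nat.cast_nonneg _)
      have h2 : (t : ℝ) * l1 (derivative T * solIter T A t r j) ≤
          (t : ℝ) * (l1 (derivative T) * B) :=
        mul_le_mul_of_nonneg_left ((l1_mul_le _ _).trans
          (mul_le_mul_of_nonneg_left (ih r j).2 hT1)) (Nat.cast_nonneg _)
      have h3 : ∑ l, l1 (solIter T A t r l * A l j) ≤ L * B := by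
        rw [hL, Finset.sum_mul]
        refine Finset.sum_le_sum fun l _ => (l1_mul_le _ _).trans ?_
        rw [mul_comm]
        exact mul_le_mul (Finset.single_le_sum (f := fun i => l1 (A l i))
          (fun _ _ => l1_nonneg _) (mem_univ j)) (ih r l).2 (l1_nonneg _)
          (Finset.sum_nonneg fun _ _ => l1_nonneg _)
      refine (add_le_add (add_le_add h1 h2) h3).trans ?_
      rw [pow_succ, Nat.factorial_succ]
      push_cast
      have ht : (0 : ℝ) ≤ t := Nat.cast_nonneg t
      calc l1 T * (t * δ * B) + t * (l1 (derivative T) * B) + L * B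
          ≤ ((t : ℝ) + 1) * (l1 T * δ + l1 (derivative T) + L + 1) * B := by
            nlinarith [mul_nonneg (mul_nonneg ht hL0) hB0, mul_nonneg hT1 hB0,
              mul_nonneg (mul_nonneg hT0 (Nat.cast_nonneg (α := ℝ) δ)) hB0, mul_nonneg ht hB0]
        _ = _ := by rw [hB]; ring

/-- **The integral iterates.** -/
theorem exists_integral_iterate {T : ℤ[X]} {A : Matrix (Fin m) (Fin m) ℤ[X]} {c : ℝ}
    (hc : ∀ (t : ℕ) (r j : Fin m), l1 (solIter T A t r j) ≤ c ^ t * (t ! : ℝ)) (hc1 : 1 ≤ c)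
    {δ : ℕ} (hT : T.natDegree ≤ δ) (hA : ∀ i j, (A i j).natDegree ≤ δ) {k D : ℕ} (hD0 : 0 < D)
    (hD : ∀ t ≤ k, ∀ (r j : Fin m) (e : ℕ), (t ! : ℤ) ∣ (D : ℤ) * (solIter T A t r j).coeff e)
    (P : Fin m → ℤ[X]) {n : ℕ} (hP : ∀ j, (P j).natDegree ≤ n) :
    ∃ u : Fin m → ℤ[X], ∀ j, (D : ℤ[X]) * rowIter T A P k j = (k ! : ℤ[X]) * u j ∧
      (u j).natDegree ≤ n + k * δ ∧
      l1 (u j) ≤ ((k : ℝ) + 1) * (l1 T + 1) ^ k * 2 ^ n * (D * c ^ k) * ∑ r, l1 (P r) := by
  have hW : ∀ (t : ℕ) (r j : Fin m), ∃ W : ℤ[X], t ≤ k →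
      (D : ℤ[X]) * solIter T A t r j = (t ! : ℤ[X]) * W := fun t r j => by
    by_cases ht : t ≤ k
    · have h : C ((t ! : ℤ)) ∣ (D : ℤ[X]) * solIter T A t r j := by
        rw [C_dvd_iff_dvd_coeff]
        intro e
        rw [← map_natCast (C : ℤ →+* ℤ[X]), coeff_C_mul]
        exact hD t ht r j e
      obtain ⟨W, hW⟩ := h
      exact ⟨W, fun _ => by rw [hW, map_natCast]⟩
    · exact ⟨0, fun h => absurd h ht⟩
  choose W hW using hW
  refine ⟨fun j => ∑ i ∈ range (k + 1), ∑ r, T ^ i * hasseDeriv i (P r) * W (k - i) r j,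
    fun j => ?_⟩
  have heq : (D : ℤ[X]) * rowIter T A P k j = (k ! : ℤ[X]) *
      ∑ i ∈ range (k + 1), ∑ r, T ^ i * hasseDeriv i (P r) * W (k - i) r j := by
    rw [rowIter_eq, Finset.mul_sum, Finset.mul_sum]
    refine Finset.sum_congr rfl fun i hi => ?_
    rw [Finset.mem_range] at hi
    rw [Finset.mul_sum, Finset.mul_sum, Finset.mul_sum]
    refine Finset.sum_congr rfl fun r _ => ?_
    rw [← factorial_smul_hasseDeriv, LinearMap.smul_apply, nsmul_eq_mul,
      ← Nat.choose_mul_factorial_mul_factorial (show i ≤ k by omega)]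
    push_cast
    linear_combination (k.choose i : ℤ[X]) * (i ! : ℤ[X]) * T ^ i * hasseDeriv i (P r) *
      hW (k - i) r j (Nat.sub_le k i)
  have hWl : ∀ t ≤ k, ∀ r, l1 (W t r j) ≤ (D : ℝ) * c ^ k := fun t ht r => by
    have h := congrArg l1 (hW t r j ht)
    rw [l1_natCast_mul, l1_natCast_mul] at h
    refine le_of_mul_le_mul_left ?_ (Nat.cast_pos.2 (Nat.factorial_pos t) : (0 : ℝ) < t !)
    rw [← h]
    calc (D : ℝ) * l1 (solIter T A t r j) ≤ (D : ℝ) * (c ^ t * (t ! : ℝ)) := by
          gcongr; exact hc t r j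
      _ ≤ (D : ℝ) * (c ^ k * (t ! : ℝ)) := by gcongr
      _ = (t ! : ℝ) * ((D : ℝ) * c ^ k) := by ring
  refine ⟨heq, ?_, ?_⟩
  · have h1 : ((k ! : ℤ[X]) * ∑ i ∈ range (k + 1), ∑ r,
        T ^ i * hasseDeriv i (P r) * W (k - i) r j).natDegree ≤ n + k * δ := by
      rw [← heq, ← map_natCast (C : ℤ →+* ℤ[X])]
      exact (natDegree_C_mul_le _ _).trans (FA.GFunctions.vIter_natDegree_le T _ 0 P hT
        (fun i l => by simpa using hA l i) hP k j)
    rwa [← map_natCast (C : ℤ →+* ℤ[X]),
      natDegree_C_mul (Nat.cast_ne_zero.2 (Nat.factorial_ne_zero k))] at h1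
  · refine (l1_sum_le _ _).trans ((Finset.sum_le_card_nsmul _ _
      ((l1 T + 1) ^ k * 2 ^ n * ((D : ℝ) * c ^ k) * ∑ r, l1 (P r)) fun i hi => ?_).trans ?_)
    · rw [Finset.mem_range] at hi
      rw [Finset.mul_sum]
      refine (l1_sum_le _ _).trans (Finset.sum_le_sum fun r _ => ?_)
      have hT0 := l1_nonneg T
      have h1 : l1 (T ^ i) ≤ (l1 T + 1) ^ k :=
        (FA.GFunctions.l1_pow_le T i).trans ((pow_le_pow_left₀ hT0 (by linarith) i).trans
          (pow_le_pow_right₀ (by linarith) (by omega)))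
      have h2 : l1 (hasseDeriv i (P r)) ≤ 2 ^ n * l1 (P r) :=
        (FA.GFunctions.l1_hasseDeriv_le _ _).trans (mul_le_mul_of_nonneg_right
          (pow_le_pow_right₀ one_le_two (hP r)) (l1_nonneg _))
      refine ((l1_mul_le _ _).trans (mul_le_mul ((l1_mul_le _ _).trans
        (mul_le_mul h1 h2 (l1_nonneg _) (by positivity))) (hWl _ (Nat.sub_le k i) r)
        (l1_nonneg _) (by have := l1_nonneg (P r); positivity))).trans_eq ?_
      ring
    · rw [card_range, nsmul_eq_mul]
      push_cast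
      exact le_of_eq (by ring)

/-- The forms of the iterates. -/
theorem formSeries_rowIter {T : ℚ[X]} {A : Matrix (Fin m) (Fin m) ℚ[X]}
    {f : Fin m → PowerSeries ℚ} (hf : IsSolution T A f) (P : Fin m → ℚ[X]) :
    ∀ k, formSeries f (rowIter T A P k) =
      ((T ^ k : ℚ[X]) : PowerSeries ℚ) * (PowerSeries.derivative ℚ)^[k] (formSeries f P)
  | 0 => by simp [rowIter, vIter]
  | k + 1 => by
    have e : formSeries f (rowIter T A P (k + 1)) =
        formSeries f (vecDeriv T A (rowIter T A P k)) - (k : PowerSeries ℚ) *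
          (derivative T : PowerSeries ℚ) * formSeries f (rowIter T A P k) := by
      simp only [formSeries, rowIter_succ, Polynomial.coe_sub, Polynomial.coe_mul, sub_mul,
        Finset.sum_sub_distrib, Finset.mul_sum, mul_assoc]
      congr 1
      refine Finset.sum_congr rfl fun j _ => ?_
      rw [← map_natCast (C : ℚ →+* ℚ[X]), Polynomial.coe_C, map_natCast]
    rw [e, ← mul_derivative_formSeries hf, formSeries_rowIter hf P k,
      Function.iterate_succ_apply', Derivation.leibniz, PowerSeries.derivative_coe, smul_eq_mul,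
      smul_eq_mul]
    have h := congrArg (fun p : ℚ[X] => (p : PowerSeries ℚ))
      (FA.GFunctions.mul_derivative_pow_self T k)
    simp only [Polynomial.coe_mul, ← map_natCast (C : ℚ →+* ℚ[X]), Polynomial.coe_C] at h
    rw [map_natCast] at h
    rw [pow_succ, Polynomial.coe_mul]
    linear_combination (PowerSeries.derivative ℚ)^[k] (formSeries f P) * h

theorem abs_coeff_polynomial_mul_le {S : PowerSeries ℚ} {A B : ℝ} (hB : 1 ≤ B)
    (hS : ∀ i, |((PowerSeries.coeff i S : ℚ) : ℝ)| ≤ A * B ^ i) (W : ℤ[X]) (e : ℕ) :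
    |((PowerSeries.coeff e ((W.map (Int.castRingHom ℚ) : PowerSeries ℚ) * S) : ℚ) : ℝ)| ≤
      l1 W * A * B ^ e := by
  have hA : 0 ≤ A := by simpa using (abs_nonneg _).trans (hS 0)
  rw [FA.GFunctions.coeff_polynomial_mul, Rat.cast_sum, mul_assoc,
    l1_eq_sum W (show W.natDegree < W.natDegree + e + 1 by omega), Finset.sum_mul]
  refine (Finset.abs_sum_le_sum_abs _ _).trans ((Finset.sum_le_sum fun i hi => ?_).trans
    (Finset.sum_le_sum_of_subset_of_nonneg (fun i hi => by
      simp only [Finset.mem_range] at hi ⊢; omega) fun i _ _ => by positivity))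
  rw [coeff_map, eq_intCast, Rat.cast_mul, Rat.cast_intCast, abs_mul]
  refine mul_le_mul_of_nonneg_left ((hS _).trans ?_) (abs_nonneg _)
  exact mul_le_mul_of_nonneg_left (pow_le_pow_right₀ hB (Nat.sub_le e i)) hA

/-- **The forms of the integral iterates are small.** -/
theorem form_iterate_bound {T : ℤ[X]} {A : Matrix (Fin m) (Fin m) ℤ[X]}
    {f : Fin m → PowerSeries ℚ}
    (hf : IsSolution (T.map (Int.castRingHom ℚ)) (A.map (Polynomial.map (Int.castRingHom ℚ))) f)
    {C₀ : ℕ} (hC : 1 ≤ C₀) (hbound : ∀ j i, |PowerSeries.coeff i (f j)| ≤ (C₀ : ℚ) ^ (i + 1))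
    {P u : Fin m → ℤ[X]} {k D N : ℕ}
    (hu : ∀ j, (D : ℤ[X]) * rowIter T A P k j = (k ! : ℤ[X]) * u j)
    (hN : PowerSeries.X ^ N ∣ formSeries f fun j => (P j).map (Int.castRingHom ℚ)) :
    (∀ i < N - k, PowerSeries.coeff i
      (formSeries f fun j => (u j).map (Int.castRingHom ℚ)) = 0) ∧
    ∀ i, |((PowerSeries.coeff i
        (formSeries f fun j => (u j).map (Int.castRingHom ℚ)) : ℚ) : ℝ)| ≤
      (l1 T + 1) ^ k * ((D : ℝ) * (C₀ * ∑ j, l1 (P j)) * (2 * C₀) ^ k) * (2 * (C₀ : ℝ)) ^ i := by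
  obtain ⟨R₀, hR₀⟩ : ∃ R₀, R₀ = formSeries f fun j => (P j).map (Int.castRingHom ℚ) := ⟨_, rfl⟩
  obtain ⟨S, hS⟩ : ∃ S : PowerSeries ℚ, S = PowerSeries.C ((D : ℚ) / (k ! : ℚ)) *
      (PowerSeries.derivative ℚ)^[k] R₀ := ⟨_, rfl⟩
  have hmap : ∀ j, rowIter (T.map (Int.castRingHom ℚ))
      (A.map (Polynomial.map (Int.castRingHom ℚ))) (fun l => (P l).map (Int.castRingHom ℚ)) k j =
        (rowIter T A P k j).map (Int.castRingHom ℚ) := fun j => by
    have h := congrFun (FA.GFunctions.vIter_map T (-A.transpose) (Int.castRingHom ℚ) 0 P k) j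
    rw [show (-A.transpose).map (Polynomial.map (Int.castRingHom ℚ)) =
      -(A.map (Polynomial.map (Int.castRingHom ℚ))).transpose from
        Matrix.ext fun a b => by simp] at h
    exact h.symm
  have heq : formSeries f (fun j => (u j).map (Int.castRingHom ℚ)) =
      ((T ^ k).map (Int.castRingHom ℚ) : PowerSeries ℚ) * S := by
    have h := formSeries_rowIter hf (fun l => (P l).map (Int.castRingHom ℚ)) k
    rw [← hR₀, ← Polynomial.map_pow] at h
    have h2 : ∀ j, ((u j).map (Int.castRingHom ℚ) : PowerSeries ℚ) =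
        PowerSeries.C ((D : ℚ) / (k ! : ℚ)) *
          ((rowIter T A P k j).map (Int.castRingHom ℚ) : PowerSeries ℚ) := fun j => by
      have h1 := congrArg (fun p : ℤ[X] => ((p.map (Int.castRingHom ℚ) : ℚ[X]) : PowerSeries ℚ))
        (hu j)
      simp only [Polynomial.map_mul, Polynomial.map_natCast, Polynomial.coe_mul,
        ← map_natCast (C : ℚ →+* ℚ[X]), Polynomial.coe_C] at h1
      rw [div_eq_mul_inv, map_mul, mul_comm (PowerSeries.C (D : ℚ)), mul_assoc, h1, ← mul_assoc,
        ← map_mul, inv_mul_cancel₀ (Nat.cast_ne_zero.2 (Nat.factorial_ne_zero k)), map_one,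
        one_mul]
    rw [hS, mul_left_comm, ← h]
    simp only [formSeries, hmap, h2, Finset.mul_sum, mul_assoc]
  have hScoeff : ∀ i, PowerSeries.coeff i S =
      (D : ℚ) * ((i + k).choose k : ℚ) * PowerSeries.coeff (i + k) R₀ := fun i => by
    rw [hS, PowerSeries.coeff_C_mul, PowerSeries.coeff_iterate_derivative,
      Nat.ascFactorial_eq_factorial_mul_choose]
    push_cast
    field_simp
  refine ⟨fun i hi => ?_, fun i => ?_⟩
  · rw [heq, FA.GFunctions.coeff_polynomial_mul]
    refine Finset.sum_eq_zero fun l _ => ?_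
    rw [hScoeff, hR₀, PowerSeries.X_pow_dvd_iff.1 hN (i - l + k) (by omega), mul_zero, mul_zero]
  · have hC' : (1 : ℝ) ≤ C₀ := by exact_mod_cast hC
    have hSb : ∀ l, |((PowerSeries.coeff l S : ℚ) : ℝ)| ≤
        (D : ℝ) * (C₀ * ∑ j, l1 (P j)) * (2 * C₀) ^ k * (2 * (C₀ : ℝ)) ^ l := fun l => by
      rw [hScoeff, Rat.cast_mul, Rat.cast_mul, Rat.cast_natCast, Rat.cast_natCast, abs_mul,
        abs_mul, Nat.abs_cast, Nat.abs_cast]
      have h1 : (((l + k).choose k : ℕ) : ℝ) ≤ 2 ^ (l + k) := by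
        exact_mod_cast Nat.choose_le_two_pow _ _
      have h2 : |((PowerSeries.coeff (l + k) R₀ : ℚ) : ℝ)| ≤
          (∑ j, l1 (P j)) * (C₀ : ℝ) ^ (l + k + 1) := by
        rw [hR₀, formSeries, map_sum, Rat.cast_sum, Finset.sum_mul]
        exact (Finset.abs_sum_le_sum_abs _ _).trans (Finset.sum_le_sum fun j _ =>
          FA.GFunctions.abs_coeff_mul_le hC (hbound j) (P j) (l + k))
      calc (D : ℝ) * (((l + k).choose k : ℕ) : ℝ) * |((PowerSeries.coeff (l + k) R₀ : ℚ) : ℝ)|
          ≤ (D : ℝ) * 2 ^ (l + k) * ((∑ j, l1 (P j)) * (C₀ : ℝ) ^ (l + k + 1)) := by gcongr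
        _ = _ := by rw [mul_pow, mul_pow]; ring
    rw [heq]
    refine (abs_coeff_polynomial_mul_le (by linarith) hSb (T ^ k) i).trans ?_
    have hsum : 0 ≤ ∑ j, l1 (P j) := Finset.sum_nonneg fun _ _ => l1_nonneg _
    refine mul_le_mul_of_nonneg_right (mul_le_mul_of_nonneg_right ?_ (by positivity))
      (by positivity)
    exact (FA.GFunctions.l1_pow_le T k).trans
      (pow_le_pow_left₀ (l1_nonneg T) (by linarith [l1_nonneg T]) k)

end FA.GFunctionValues
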