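import Fermat.Agent.SiegelShidlovskii.Rank
import Fermat.Agent.GFunctionValues.Forms

/-!
# The auxiliary form and the completion of a row

Siegel's lemma gives a form of degree `K p` and geometric length vanishing to order `(m K - 1) p`;
the iterates `rowIter` span the values as the iterates `iterDeriv` do, being triangular in them.
-/

set_option autoImplicit false

noncomputable section

namespace FA.GFunctionValues

open Polynomial Finset
open FA.SiegelShidlovskii (l1 l1_eq_sum formSeries IsSolution iterDeriv iterDeriv_succ vecDeriv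
  vecDeriv_add vecDeriv_smul vecDeriv_zero exists_spanning)

variable {m : ℕ}

section rank

variable {T : ℚ[X]} {A : Matrix (Fin m) (Fin m) ℚ[X]}

theorem iterDeriv_mem_span (P : Fin m → ℚ[X]) : ∀ k : ℕ, iterDeriv T A P k ∈
    Submodule.span ℚ[X] ((fun i => rowIter T A P i) '' Set.Iic k)
  | 0 => Submodule.subset_span ⟨0, Set.mem_Iic.2 le_rfl, rfl⟩
  | k + 1 => by
    rw [iterDeriv_succ]
    have hmono : ∀ x ∈ Submodule.span ℚ[X] ((fun i => rowIter T A P i) '' Set.Iic k),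
        x ∈ Submodule.span ℚ[X] ((fun i => rowIter T A P i) '' Set.Iic (k + 1)) := fun x hx =>
      Submodule.span_mono (Set.image_mono (Set.Iic_subset_Iic.2 (Nat.le_succ k))) hx
    refine Submodule.span_induction (p := fun x _ => vecDeriv T A x ∈
        Submodule.span ℚ[X] ((fun i => rowIter T A P i) '' Set.Iic (k + 1)))
      ?_ ?_ ?_ ?_ (iterDeriv_mem_span P k)
    · rintro _ ⟨i, hi, rfl⟩
      have e : vecDeriv T A (rowIter T A P i) =
          rowIter T A P (i + 1) + ((i : ℚ[X]) * derivative T) • rowIter T A P i := by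
        funext j
        simp [rowIter_succ]
      rw [e]
      exact Submodule.add_mem _ (Submodule.subset_span ⟨i + 1, Nat.succ_le_succ hi, rfl⟩)
        (Submodule.smul_mem _ _ (hmono _ (Submodule.subset_span ⟨i, hi, rfl⟩)))
    · rw [vecDeriv_zero]
      exact Submodule.zero_mem _
    · intro x y _ _ hx hy
      rw [vecDeriv_add]
      exact Submodule.add_mem _ hx hy
    · intro a x hx0 hx
      rw [vecDeriv_smul]
      exact Submodule.add_mem _ (Submodule.smul_mem _ _ hx)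
        (Submodule.smul_mem _ _ (hmono x hx0))

/-- A row is completed by values of `rowIter` of small index to an invertible matrix. -/
theorem exists_completion_rowIter {f : Fin m → PowerSeries ℚ} (hf : IsSolution T A f)
    (hfj : ∀ j, f j ≠ 0) {α : ℚ} (hα : T.eval α ≠ 0) (hα0 : α ≠ 0) {s : ℕ}
    (hT : T.natDegree ≤ s) (hA : ∀ i j, (A i j).natDegree ≤ s) (hm : 0 < m) :
    ∃ o : ℕ, ∀ (n N : ℕ) (P : Fin m → ℚ[X]), (∀ j, (P j).natDegree ≤ n) →
      PowerSeries.X ^ N ∣ formSeries f P →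
      (Matrix.of fun k j : Fin m => iterDeriv T A P k j).det ≠ 0 → ∀ h : Fin m → ℚ, h ≠ 0 →
      ∃ (κ : Fin m → ℕ) (r₀ : Fin m), (∀ r, κ r + N < m * n + (o + 1)) ∧
        ((Matrix.of fun r j => (rowIter T A P (κ r) j).eval α).updateRow r₀ h).det ≠ 0 := by
  classical
  obtain ⟨o, ho⟩ := exists_spanning (K := ℚ) hf hfj (by simpa using hα) hα0 hT hA hm
  refine ⟨o, fun n N P hdeg hdvd hdet h hh => ?_⟩
  set S : Set (Fin m → ℚ) :=
    (fun k : ℕ => fun j => (rowIter T A P k j).eval α) '' {k | k + N < m * n + (o + 1)} with hS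
  have hspan : Submodule.span ℚ S = ⊤ := eq_top_iff.2 fun x _ => by
    refine Submodule.span_le.2 ?_ (ho n N P hdeg hdvd hdet x)
    rintro _ ⟨k, hk, rfl⟩
    simp only [Polynomial.coe_aeval_eq_eval, SetLike.mem_coe]
    refine Submodule.span_induction (p := fun x _ => (fun j => (x j).eval α) ∈ Submodule.span ℚ S)
      ?_ ?_ ?_ ?_ (iterDeriv_mem_span P k)
    · rintro _ ⟨i, hi, rfl⟩
      refine Submodule.subset_span ⟨i, ?_, rfl⟩
      simp only [Set.mem_ofPred_eq, Set.mem_Iic] at hi hk ⊢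
      omega
    · simp only [Pi.zero_apply, eval_zero]
      exact Submodule.zero_mem _
    · intro x y _ _ hx hy
      simp only [Pi.add_apply, eval_add]
      exact Submodule.add_mem _ hx hy
    · intro a x _ hx
      simp only [Pi.smul_apply, smul_eq_mul, eval_mul]
      exact Submodule.smul_mem _ (a.eval α) hx
  obtain ⟨g, hg, hgspan, hgi⟩ := Submodule.exists_fun_fin_finrank_span_eq ℚ S
  have hfin : Module.finrank ℚ (Submodule.span ℚ S) = m := by
    rw [hspan, finrank_top, Module.finrank_fin_fun]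
  choose κ hκ hκe using hg
  set B := Matrix.of fun r j => (rowIter T A P (κ (Fin.cast hfin.symm r)) j).eval α with hB
  have hBrow : B.row = g ∘ Fin.cast hfin.symm := funext fun r => hκe _
  have hBdet : B.det ≠ 0 := by
    have h1 : LinearIndependent ℚ B.row := hBrow ▸ hgi.comp _ (Fin.cast_injective _)
    rw [Matrix.linearIndependent_rows_iff_isUnit, Matrix.isUnit_iff_isUnit_det] at h1
    exact h1.ne_zero
  have hmem : h ∈ Submodule.span ℚ (Set.range B.row) := by
    rw [hBrow, show Set.range (g ∘ Fin.cast hfin.symm) = Set.range g from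
      (finCongr hfin.symm).surjective.range_comp g, hgspan, hspan]
    exact Submodule.mem_top
  obtain ⟨c, hc⟩ := Submodule.mem_span_range_iff_exists_fun ℚ |>.1 hmem
  obtain ⟨r₀, hr₀⟩ : ∃ r, c r ≠ 0 := by
    by_contra hall
    push Not at hall
    exact hh (by rw [← hc, Finset.sum_eq_zero fun r _ => by rw [hall r, zero_smul]])
  refine ⟨fun r => κ (Fin.cast hfin.symm r), r₀, fun r => hκ _, ?_⟩
  change (B.updateRow r₀ h).det ≠ 0
  rw [← hc, show ∑ r, c r • B.row r = ∑ r, c r • B r from rfl, Matrix.det_updateRow_sum]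
  exact mul_ne_zero hr₀ hBdet

end rank

attribute [local instance] Matrix.seminormedAddCommGroup

/-- **The auxiliary form.** -/
theorem exists_auxiliary {f : Fin m → PowerSeries ℚ} {C : ℕ} (hC : 1 ≤ C)
    (hbound : ∀ j k, |PowerSeries.coeff k (f j)| ≤ (C : ℚ) ^ (k + 1))
    (hden : ∀ N, ∃ d : ℕ, 0 < d ∧ d ≤ C ^ (N + 1) ∧
      ∀ j, ∀ k ≤ N, ∃ z : ℤ, (z : ℚ) = (d : ℚ) * PowerSeries.coeff k (f j))
    (hm : 0 < m) {K : ℕ} (hK : 0 < K) :
    ∃ G : ℝ, 1 ≤ G ∧ ∀ p : ℕ, 0 < p → ∃ P : Fin m → ℤ[X], P ≠ 0 ∧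
      (∀ j, (P j).natDegree ≤ K * p) ∧ ∑ j, l1 (P j) ≤ G ^ p ∧
      PowerSeries.X ^ ((m * K - 1) * p) ∣
        formSeries f (fun j => (P j).map (Int.castRingHom ℚ)) := by
  have hC' : (1 : ℝ) ≤ C := by exact_mod_cast hC
  obtain ⟨G₀, hG₀⟩ : ∃ G₀ : ℝ, G₀ =
      ((m : ℝ) * 2 ^ K * ((C : ℝ) ^ 2) ^ (m * K)) ^ (m * K) := ⟨_, rfl⟩
  have hm' : (1 : ℝ) ≤ m := by exact_mod_cast hm
  have hbase : (1 : ℝ) ≤ (m : ℝ) * 2 ^ K * ((C : ℝ) ^ 2) ^ (m * K) :=
    one_le_mul_of_one_le_of_one_le (one_le_mul_of_one_le_of_one_le hm' (one_le_pow₀ one_le_two))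
      (one_le_pow₀ (one_le_pow₀ hC'))
  refine ⟨(m : ℝ) * 2 ^ K * G₀, one_le_mul_of_one_le_of_one_le
    (one_le_mul_of_one_le_of_one_le hm' (one_le_pow₀ one_le_two)) (hG₀ ▸ one_le_pow₀ hbase),
    fun p hp => ?_⟩
  obtain ⟨n, hn⟩ : ∃ n, n = K * p := ⟨_, rfl⟩
  obtain ⟨N, hN⟩ : ∃ N, N = (m * K - 1) * p := ⟨_, rfl⟩
  have hNn : N + p = m * n := by
    obtain ⟨t, ht⟩ := Nat.exists_eq_add_of_le (show 1 ≤ m * K from Nat.mul_pos hm hK)
    rw [hN, hn, show m * (K * p) = (m * K) * p by ring, ht, Nat.add_sub_cancel_left]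
    ring
  rw [← hn, ← hN]
  obtain ⟨d, hd0, hdC, hdz⟩ := hden N
  choose! z hz using hdz
  obtain ⟨A, hA⟩ : ∃ A : Matrix (Fin N) (Fin m × Fin (n + 1)) ℤ,
      A = Matrix.of fun (k : Fin N) (x : Fin m × Fin (n + 1)) =>
        if (x.2 : ℕ) ≤ k then z x.1 ((k : ℕ) - x.2) else 0 := ⟨_, rfl⟩
  have hentry : ∀ k x, ‖A k x‖ ≤ ((C : ℝ) ^ 2) ^ (N + 1) := fun k x => by
    rw [hA, Matrix.of_apply, Int.norm_eq_abs]
    split_ifs
    · have h1 : ((z x.1 ((k : ℕ) - x.2) : ℤ) : ℝ) =
          (d : ℝ) * ((PowerSeries.coeff ((k : ℕ) - x.2) (f x.1) : ℚ) : ℝ) := by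
        rw [← Rat.cast_intCast, hz x.1 _ (by omega)]
        push_cast
        ring
      rw [h1, abs_mul, Nat.abs_cast, ← pow_mul, two_mul, pow_add]
      refine mul_le_mul (by exact_mod_cast hdC) ?_ (abs_nonneg _) (by positivity)
      have h2 := hbound x.1 ((k : ℕ) - x.2)
      rw [← Rat.cast_le (K := ℝ), Rat.cast_abs, Rat.cast_pow, Rat.cast_natCast] at h2
      exact h2.trans (pow_le_pow_right₀ hC' (by omega))
    · rw [Int.cast_zero, abs_zero]
      positivity
  obtain ⟨x, hx0, hxA, hxn⟩ : ∃ x : Fin m × Fin (n + 1) → ℤ, x ≠ 0 ∧ A.mulVec x = 0 ∧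
      ∀ i, |(x i : ℝ)| ≤ G₀ ^ p := by
    rcases Nat.eq_zero_or_pos N with h0 | h0
    · refine ⟨fun _ => 1, fun h => one_ne_zero (congrFun h ((⟨0, hm⟩, 0) : Fin m × Fin (n + 1))),
        funext fun k => absurd k.2 (by omega), fun i => ?_⟩
      rw [Int.cast_one, abs_one, hG₀]
      exact one_le_pow₀ (one_le_pow₀ hbase)
    obtain ⟨x, hx0, hxA, hxn⟩ := Int.Matrix.exists_ne_zero_int_vec_norm_le A
      (by simp only [Fintype.card_fin, Fintype.card_prod]; nlinarith) (by simpa using h0)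
    refine ⟨x, hx0, hxA, fun i => ?_⟩
    rw [← Int.norm_eq_abs]
    refine (norm_le_pi_norm x i).trans (hxn.trans ?_)
    simp only [Fintype.card_fin, Fintype.card_prod]
    push_cast
    have hmax : max 1 ‖A‖ ≤ ((C : ℝ) ^ 2) ^ (N + 1) :=
      max_le (one_le_pow₀ (one_le_pow₀ hC')) ((Matrix.norm_le_iff (by positivity)).2 hentry)
    have hb : (m : ℝ) * ((n : ℝ) + 1) * max 1 ‖A‖ ≤
        ((m : ℝ) * 2 ^ K * ((C : ℝ) ^ 2) ^ (m * K)) ^ p := by
      rw [mul_pow, mul_pow, ← pow_mul (2 : ℝ), ← hn, ← pow_mul _ (m * K) p,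
        show m * K * p = m * n by rw [hn]; ring]
      refine mul_le_mul (mul_le_mul (le_self_pow₀ hm' hp.ne') ?_ (by positivity) (by positivity))
        (hmax.trans (pow_le_pow_right₀ (one_le_pow₀ hC') (by omega))) (by positivity)
        (by positivity)
      exact_mod_cast (Nat.succ_le_of_lt n.lt_two_pow_self)
    have hb1 : (1 : ℝ) ≤ (m : ℝ) * ((n : ℝ) + 1) * max 1 ‖A‖ :=
      one_le_mul_of_one_le_of_one_le (one_le_mul_of_one_le_of_one_le hm'
        (le_add_of_nonneg_left (Nat.cast_nonneg _))) (le_max_left _ _)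
    have hden' : (0 : ℝ) < (m : ℝ) * ((n : ℝ) + 1) - N := by
      have h1 : (N : ℝ) + p = (m : ℝ) * n := by exact_mod_cast hNn
      have h2 : (1 : ℝ) ≤ p := by exact_mod_cast hp
      nlinarith
    have hexp : (N : ℝ) / ((m : ℝ) * ((n : ℝ) + 1) - N) ≤ ((m * K : ℕ) : ℝ) := by
      rw [div_le_iff₀ hden']
      have h1 : (N : ℝ) + p = (m : ℝ) * n := by exact_mod_cast hNn
      have h2 : (n : ℝ) = (K : ℝ) * p := by rw [hn]; push_cast; rfl
      have h3 : (0 : ℝ) ≤ p := Nat.cast_nonneg p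
      have h5 : (0 : ℝ) ≤ (m : ℝ) * K := by positivity
      push_cast
      nlinarith [mul_nonneg h5 (Nat.cast_nonneg (α := ℝ) m)]
    refine (Real.rpow_le_rpow_of_exponent_le hb1 hexp).trans ?_
    rw [Real.rpow_natCast, hG₀, ← pow_mul _ (m * K) p, Nat.mul_comm (m * K) p,
      pow_mul _ p (m * K)]
    exact pow_le_pow_left₀ (by linarith) hb _
  obtain ⟨P, hP⟩ : ∃ P : Fin m → ℤ[X],
      P = fun j => ∑ i : Fin (n + 1), monomial (i : ℕ) (x (j, i)) := ⟨_, rfl⟩
  have hPc : ∀ j, ∀ i : Fin (n + 1), (P j).coeff (i : ℕ) = x (j, i) := fun j i => by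
    rw [hP, finsetSum_coeff, Finset.sum_eq_single i (fun b _ hb =>
      coeff_monomial_of_ne _ fun h => hb (Fin.ext h.symm))
      (fun h => absurd (mem_univ i) h), coeff_monomial_same]
  have hPd : ∀ j, (P j).natDegree ≤ n := fun j => hP ▸ natDegree_sum_le_of_forall_le _ _ fun i _ =>
    (natDegree_monomial_le _).trans (Nat.le_of_lt_succ i.2)
  refine ⟨P, fun h => hx0 (funext fun i => ?_), hPd, ?_, ?_⟩
  · have h1 := hPc i.1 i.2
    rw [h, Pi.zero_apply, coeff_zero] at h1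
    rw [Pi.zero_apply]
    exact h1.symm
  · refine (Finset.sum_le_card_nsmul _ _ ((2 ^ n : ℝ) * G₀ ^ p) fun j _ => ?_).trans ?_
    · rw [l1_eq_sum _ (Nat.lt_succ_of_le (hPd j)), Finset.sum_range]
      refine (Finset.sum_le_card_nsmul _ _ _ fun i _ => (hPc j i).symm ▸ hxn (j, i)).trans ?_
      rw [card_univ, Fintype.card_fin, nsmul_eq_mul]
      refine mul_le_mul_of_nonneg_right ?_ ((abs_nonneg _).trans (hxn (j, 0)))
      exact_mod_cast Nat.succ_le_of_lt n.lt_two_pow_self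
    · rw [card_univ, Fintype.card_fin, nsmul_eq_mul, mul_pow, mul_pow, ← pow_mul (2 : ℝ), ← hn,
        mul_assoc]
      refine mul_le_mul_of_nonneg_right (le_self_pow₀ hm' hp.ne') ?_
      have : 0 ≤ G₀ := hG₀ ▸ pow_nonneg (by linarith) _
      positivity
  · rw [PowerSeries.X_pow_dvd_iff]
    intro k hk
    refine (mul_eq_zero.1 (?_ : (d : ℚ) * _ = 0)).resolve_left (Nat.cast_ne_zero.2 hd0.ne')
    have h1 := congrArg (fun w : ℤ => (w : ℚ)) (congrFun hxA ⟨k, hk⟩)
    simp only [Matrix.mulVec, dotProduct, hA, Matrix.of_apply, Pi.zero_apply, Int.cast_zero,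
      Fintype.sum_prod_type] at h1
    push_cast at h1
    rw [← h1, formSeries, map_sum, Finset.mul_sum]
    refine Finset.sum_congr rfl fun j _ => ?_
    obtain ⟨F, hF⟩ : ∃ F : ℕ → ℚ,
        F = fun i => ((if i ≤ k then z j (k - i) else 0 : ℤ) : ℚ) * ((P j).coeff i : ℚ) := ⟨_, rfl⟩
    rw [FA.GFunctions.coeff_polynomial_mul, Finset.mul_sum,
      Finset.sum_congr rfl (g := F) fun i hi => ?_, Finset.sum_subset (s₁ := range (k + 1))
        (s₂ := range (n + k + 2)) (fun i hi => by simp only [Finset.mem_range] at hi ⊢; omega)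
        (fun i _ hi => ?_), ← Finset.sum_subset (s₁ := range (n + 1)) (s₂ := range (n + k + 2))
        (fun i hi => by simp only [Finset.mem_range] at hi ⊢; omega) (fun i _ hi => ?_),
      Finset.sum_range]
    · exact Finset.sum_congr rfl fun i _ => by
        simp only [hF, hPc]
        push_cast
        rfl
    · rw [Finset.mem_range] at hi
      simp only [hF, coeff_eq_zero_of_natDegree_lt (lt_of_le_of_lt (hPd j) (by omega : n < i)),
        Int.cast_zero, mul_zero]
    · rw [Finset.mem_range] at hi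
      simp only [hF, if_neg (by omega : ¬i ≤ k), Int.cast_zero, zero_mul]
    · rw [Finset.mem_range] at hi
      simp only [hF, if_pos (by omega : i ≤ k)]
      rw [hz j (k - i) (by omega), coeff_map, eq_intCast]
      ring

end FA.GFunctionValues
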