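import Fermat.Agent.GFunctionValues.Main
import Fermat.Agent.Apery.Chebyshev
import Mathlib.Analysis.SpecialFunctions.Log.Deriv

/-!
# The logarithm as a G-function

`1` and `log (1 + x)` are G-functions, independent over the polynomials, solving a linear system;
so the irrationality exponent of `log (1 + 1 / q)` is at most `2 + ε` for large `q`.
-/

set_option autoImplicit false

noncomputable section

namespace FA.GFunctionValues

open Polynomial Finset
open FA.GFunctions (IsGFunction)
open FA.SiegelShidlovskii (val HasVal formSeries IsSolution)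

/-- The series of `log (1 + x)`. -/
def logSeries : PowerSeries ℚ :=
  PowerSeries.mk fun k => if k = 0 then 0 else (-1 : ℚ) ^ (k + 1) / k

theorem isGFunction_one : IsGFunction (1 : PowerSeries ℚ) :=
  ⟨1, fun k => by rw [PowerSeries.coeff_one]; split_ifs <;> simp, fun N =>
    ⟨1, one_pos, by simp, fun k _ => ⟨if k = 0 then 1 else 0, by
      rw [PowerSeries.coeff_one]; split_ifs <;> simp⟩⟩⟩

theorem isGFunction_logSeries : IsGFunction logSeries := by
  obtain ⟨C₀, hC₀, hlcm⟩ := FA.Apery.exists_lcmUpto_le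
  refine ⟨⌈C₀⌉₊ + 4, fun k => ?_, fun N =>
    ⟨Nat.lcmUpto N, Nat.lcmUpto_pos _, ?_, fun k hk => ?_⟩⟩
  · refine le_trans ?_ (one_le_pow₀ (by exact_mod_cast (show 1 ≤ ⌈C₀⌉₊ + 4 by omega)))
    rw [logSeries, PowerSeries.coeff_mk]
    split_ifs with h
    · simp
    · rw [abs_div, abs_pow, abs_neg, abs_one, one_pow, Nat.abs_cast, div_le_one
        (Nat.cast_pos.2 (Nat.pos_of_ne_zero h))]
      exact_mod_cast Nat.pos_of_ne_zero h
  · rw [← Nat.cast_le (α := ℝ)]
    refine (hlcm N).trans ?_
    push_cast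
    rw [pow_succ']
    have h1 : C₀ ≤ (⌈C₀⌉₊ : ℝ) := Nat.le_ceil _
    exact mul_le_mul (by linarith) (pow_le_pow_left₀ (by norm_num) (by linarith) N) (by positivity)
      (by positivity)
  · rcases Nat.eq_zero_or_pos k with rfl | hk0
    · exact ⟨0, by simp [logSeries]⟩
    · obtain ⟨e, he⟩ : k ∣ Nat.lcmUpto N :=
        Finset.dvd_lcm (f := id) (Finset.mem_Icc.2 ⟨hk0, hk⟩)
      refine ⟨(-1) ^ (k + 1) * (e : ℤ), ?_⟩
      have hk' : (k : ℚ) ≠ 0 := Nat.cast_ne_zero.2 (by omega)
      rw [logSeries, PowerSeries.coeff_mk, if_neg (by omega), he]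
      push_cast
      field_simp

theorem logSeries_derivative :
    ((1 + X : ℚ[X]) : PowerSeries ℚ) * PowerSeries.derivative ℚ logSeries = 1 := by
  ext k
  rw [Polynomial.coe_add, Polynomial.coe_one, Polynomial.coe_X, add_mul, one_mul, map_add]
  have hc : ∀ i, PowerSeries.coeff i (PowerSeries.derivative ℚ logSeries) = (-1 : ℚ) ^ i :=
    fun i => by
      rw [PowerSeries.coeff_derivative, logSeries, PowerSeries.coeff_mk, if_neg (by omega)]
      have : (i : ℚ) + 1 ≠ 0 := by positivity
      push_cast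
      field_simp
      ring
  rcases k with _ | k
  · simp [hc]
  · rw [PowerSeries.coeff_succ_X_mul, hc, hc, PowerSeries.coeff_one, if_neg (by omega), pow_succ]
    ring

/-- `1` and `log (1 + x)` are independent over the polynomials. -/
theorem logSeries_independent (P : Fin 2 → ℚ[X])
    (hP : formSeries ![1, logSeries] P = 0) : P = 0 := by
  rw [formSeries, Fin.sum_univ_two] at hP
  simp only [Matrix.cons_val_zero, Matrix.cons_val_one, mul_one] at hP
  obtain ⟨T, hT⟩ : ∃ T : ℚ[X], T = X - C (-1) := ⟨_, rfl⟩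
  have hT' : (T : PowerSeries ℚ) * PowerSeries.derivative ℚ logSeries = 1 := by
    rw [hT, map_neg, map_one, sub_neg_eq_add, add_comm]
    exact logSeries_derivative
  have hd := congrArg (PowerSeries.derivative ℚ) hP
  simp only [map_add, Derivation.leibniz, smul_eq_mul, PowerSeries.derivative_coe, map_zero] at hd
  have key : T * (derivative (P 0) * P 1 - P 0 * derivative (P 1)) = -(P 1 ^ 2) := by
    refine Polynomial.coe_inj.1 ?_
    simp only [Polynomial.coe_mul, Polynomial.coe_sub, Polynomial.coe_neg, Polynomial.coe_pow]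
    linear_combination (T : PowerSeries ℚ) * (P 1 : PowerSeries ℚ) * hd -
      (T : PowerSeries ℚ) * (derivative (P 1) : PowerSeries ℚ) * hP -
      (P 1 : PowerSeries ℚ) ^ 2 * hT'
  have h1 : P 1 = 0 := by
    by_contra h1
    have hTT : derivative T = 1 := by simp [hT]
    by_cases h0 : P 0 = 0
    · rw [h0, map_zero, zero_mul, zero_mul, sub_zero, mul_zero, eq_comm, neg_eq_zero] at key
      exact h1 (pow_eq_zero_iff two_ne_zero |>.1 key)
    obtain ⟨U, hU, hU0⟩ := exists_eq_pow_rootMultiplicity_mul_and_not_dvd (P 1) h1 (-1)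
    obtain ⟨V, hV, hV0⟩ := exists_eq_pow_rootMultiplicity_mul_and_not_dvd (P 0) h0 (-1)
    rw [← hT] at hU hV hU0 hV0
    rw [hT, dvd_iff_isRoot, IsRoot.def] at hU0 hV0
    generalize (P 1).rootMultiplicity (-1) = e at hU
    generalize (P 0).rootMultiplicity (-1) = g at hV
    have hTe : T.eval (-1) = 0 := by simp [hT]
    have hpow := fun i => FA.GFunctions.mul_derivative_pow_self T i
    simp only [hTT, mul_one] at hpow
    have heq : T ^ (g + e) * (((g : ℚ[X]) - (e : ℚ[X])) * V * U +
        T * (derivative V * U - V * derivative U)) = -(T ^ (2 * e) * U ^ 2) := by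
      have e2 : (T ^ e * U) ^ 2 = T ^ (2 * e) * U ^ 2 := by ring
      rw [hU, hV, derivative_mul, derivative_mul] at key
      rw [← e2, pow_add]
      linear_combination key - T ^ e * V * U * hpow g + T ^ g * V * U * hpow e
    have hT0 : T ≠ 0 := hT ▸ X_sub_C_ne_zero _
    rcases le_or_gt e g with hge | hge
    · obtain ⟨i, rfl⟩ := Nat.exists_eq_add_of_le hge
      rw [show e + i + e = 2 * e + i by ring, pow_add, mul_assoc, ← mul_neg] at heq
      have h2 := congrArg (Polynomial.eval (-1)) (mul_left_cancel₀ (pow_ne_zero _ hT0) heq)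
      simp only [eval_mul, eval_pow, eval_add, eval_sub, eval_natCast, eval_neg, hTe] at h2
      refine hU0 (pow_eq_zero_iff two_ne_zero |>.1 (neg_eq_zero.1 (h2.symm.trans ?_)))
      rcases i with _ | i <;> simp
    · obtain ⟨i, rfl⟩ := Nat.exists_eq_add_of_lt hge
      rw [show 2 * (g + i + 1) = g + (g + i + 1) + (i + 1) by ring, pow_add T (g + (g + i + 1)),
        mul_assoc (T ^ (g + (g + i + 1))) (T ^ (i + 1)), ← mul_neg] at heq
      have h2 := congrArg (Polynomial.eval (-1)) (mul_left_cancel₀ (pow_ne_zero _ hT0) heq)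
      simp only [eval_mul, eval_pow, eval_add, eval_sub, eval_natCast, eval_neg, hTe, zero_mul,
        add_zero, zero_pow (Nat.succ_ne_zero i), neg_zero, mul_eq_zero, hU0, hV0, or_false] at h2
      push_cast at h2
      have : (0 : ℚ) ≤ i := Nat.cast_nonneg i
      linarith
  funext j
  fin_cases j
  · rw [h1, Polynomial.coe_zero, zero_mul, add_zero] at hP
    exact Polynomial.coe_eq_zero_iff.1 hP
  · exact h1

/-- The system of `1` and `log (1 + x)`. -/
theorem isSolution_logSeries :
    IsSolution ((1 + X : ℤ[X]).map (Int.castRingHom ℚ))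
      ((Matrix.of ![![0, 0], ![1, 0]] : Matrix (Fin 2) (Fin 2) ℤ[X]).map
        (Polynomial.map (Int.castRingHom ℚ))) ![1, logSeries] := by
  intro i
  rw [Fin.sum_univ_two, Polynomial.map_add, Polynomial.map_one, map_X]
  fin_cases i
  · simp
  · simpa using logSeries_derivative

theorem hasVal_logSeries {x : ℝ} (hx : |x| < 1) : HasVal logSeries x (Real.log (1 + x)) := by
  rw [HasVal, ← hasSum_nat_add_iff' 1, Finset.sum_range_one]
  have h := (Real.hasSum_pow_div_log_of_abs_lt_one ((abs_neg x).trans_lt hx)).neg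
  rw [neg_neg, sub_neg_eq_add] at h
  have h0 : ((PowerSeries.coeff 0 logSeries : ℚ) : ℝ) * x ^ 0 = 0 := by simp [logSeries]
  rw [h0, sub_zero]
  refine h.congr_fun fun k => ?_
  rw [logSeries, PowerSeries.coeff_mk, if_neg (by omega)]
  push_cast
  rw [neg_pow x, pow_succ' (-1 : ℝ) (k + 1)]
  ring

/-- **The irrationality exponent of `log (1 + 1 / q)`.** -/
theorem exists_log_measure {ε : ℝ} (hε : 0 < ε) :
    ∃ q₀ : ℕ, ∀ q : ℕ, q₀ ≤ q → ∃ c : ℝ, 0 < c ∧ ∀ p r : ℤ, 0 < r →
      c * (r : ℝ) ^ (-(2 + ε)) ≤ |Real.log (1 + 1 / q) - p / r| := by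
  have hT : (1 + X : ℤ[X]) ≠ 0 := fun h => by simpa using congrArg (Polynomial.eval 0) h
  have hG : ∀ j : Fin 2, IsGFunction (![1, logSeries] j) := fun j => by
    fin_cases j
    · exact isGFunction_one
    · exact isGFunction_logSeries
  obtain ⟨q₀, hq₀⟩ := exists_linear_form_measure hT hG logSeries_independent isSolution_logSeries
    two_pos hε
  refine ⟨q₀ + 2, fun q hq => ?_⟩
  obtain ⟨hval, c, hc, hcm⟩ := hq₀ q (by omega)
  have hq2 : (2 : ℝ) ≤ q := by exact_mod_cast (show 2 ≤ q by omega)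
  have hx : |(1 / q : ℝ)| < 1 := by
    rw [abs_of_pos (by positivity), div_lt_one (by positivity)]
    linarith
  have hv1 : val (![1, logSeries] 1) (1 / q : ℝ) = Real.log (1 + 1 / q) :=
    (hasVal_logSeries hx).val_eq
  have hv0 : val (![1, logSeries] 0) (1 / q : ℝ) = 1 := by
    refine HasVal.val_eq ?_
    simp only [Matrix.cons_val_zero]
    refine (hasSum_ite_eq 0 (1 : ℝ)).congr_fun fun k => ?_
    rw [PowerSeries.coeff_one]
    split_ifs with h <;> simp [h]
  obtain ⟨L, hL⟩ : ∃ L, L = Real.log (1 + 1 / q) := ⟨_, rfl⟩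
  rw [← hL] at hv1
  refine ⟨min 1 (c * (|L| + 1) ^ (-(1 + ε))), lt_min one_pos (by positivity), fun p r hr => ?_⟩
  rw [← hL]
  have hr1 : (1 : ℝ) ≤ r := by exact_mod_cast hr
  rcases le_or_gt 1 |L - p / r| with hbig | hsmall
  · refine le_trans (mul_le_one₀ (min_le_left _ _) (by positivity) ?_) hbig
    exact Real.rpow_le_one_of_one_le_of_nonpos hr1 (by linarith)
  have hp : |(p : ℝ)| ≤ r * (|L| + 1) := by
    have h1 : |(p : ℝ) / r| ≤ |L| + 1 := by
      have := abs_sub_abs_le_abs_sub ((p : ℝ) / r) L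
      rw [abs_sub_comm] at hsmall
      linarith
    rw [abs_div, abs_of_pos (by linarith : (0 : ℝ) < r), div_le_iff₀ (by linarith)] at h1
    linarith
  have h := hcm ![-p, r] (fun h0 => hr.ne' (by simpa using congrFun h0 1)) (r * (|L| + 1))
    (fun j => by
      fin_cases j
      · simpa using hp
      · have : (r : ℝ) * 1 ≤ r * (|L| + 1) :=
          mul_le_mul_of_nonneg_left (le_add_of_nonneg_left (abs_nonneg L)) (by linarith)
        simpa [abs_of_pos (by linarith : (0 : ℝ) < r)] using this)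
  rw [Fin.sum_univ_two, hv0, hv1] at h
  simp only [Matrix.cons_val_zero, Matrix.cons_val_one, Int.cast_neg, mul_one] at h
  have e1 : |-(p : ℝ) + r * L| = r * |L - p / r| := by
    rw [show -(p : ℝ) + r * L = r * (L - p / r) by field_simp; ring, abs_mul,
      abs_of_pos (by linarith : (0 : ℝ) < r)]
  rw [e1, Real.mul_rpow (by linarith) (by positivity)] at h
  refine (mul_le_mul_of_nonneg_right (min_le_right _ _) (by positivity)).trans ?_
  rw [show -(2 + ε) = -(1 + ε) + (-1 : ℝ) by ring, Real.rpow_add (by linarith), Real.rpow_neg_one]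
  rw [show -(((2 : ℕ) : ℝ) - 1 + ε) = -(1 + ε) by push_cast; ring] at h
  rw [← mul_assoc, ← div_eq_mul_inv, div_le_iff₀ (by linarith)]
  linarith

end FA.GFunctionValues
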