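import Fermat.Agent.GFunctionValues.Auxiliary
import Fermat.Agent.GFunctions.Chudnovsky
import Fermat.Agent.SiegelShidlovskii.Estimates

/-!
# Values of G-functions

At `x = a / b` a row `h` and `m - 1` integral forms of degree `(K + 2 δ) p` in `b`, each at most
`(b ^ (K + 2 δ) (|a| / b) ^ (m K - 3)) ^ p`, give a determinant which bounds every value by the
linear form `h`. As `K` grows the exponent of `H` tends to `m - 1`.
-/

set_option autoImplicit false

noncomputable section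

namespace FA.GFunctionValues

open Polynomial Finset Filter Topology
open scoped Nat
open FA.GFunctions (IsGFunction Galochkin solIter)
open FA.SiegelShidlovskii (l1 l1_nonneg val HasVal formSeries IsSolution iterDeriv
  shidlovskii_lemma exists_int_eval det_abs_le)

variable {m : ℕ} {T : ℤ[X]} {A : Matrix (Fin m) (Fin m) ℤ[X]} {f : Fin m → PowerSeries ℚ}

/-- The entries of the adjugate of integral rows. -/
theorem abs_adjugate_le (M : Matrix (Fin m) (Fin m) ℤ) (r₀ j r : Fin m) {V H : ℝ}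
    (hrow : ∀ i, i ≠ r₀ → ∀ l, |(M i l : ℝ)| ≤ V)
    (hrow₀ : ∀ l, |(M r₀ l : ℝ)| ≤ H) :
    |(M.adjugate j r : ℝ)| ≤ (m ! : ℝ) *
      (if r = r₀ then V ^ (m - 1) else H * V ^ (m - 2)) := by
  classical
  rw [Matrix.adjugate_apply]
  refine (det_abs_le _ (fun i => if i = r then 1 else if i = r₀ then H else V)
    fun i l => ?_).trans_eq ?_
  · rw [Matrix.updateRow_apply]
    split_ifs with h1 h2
    · rcases eq_or_ne l j with rfl | hj <;> simp [*]
    · exact h2 ▸ hrow₀ l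
    · exact hrow i h2 l
  · congr 1
    split_ifs with hr
    · subst hr
      rw [← Finset.mul_prod_erase univ _ (mem_univ r), if_pos rfl, one_mul,
        Finset.prod_congr rfl fun i hi => ?_, Finset.prod_const, Finset.card_erase_of_mem
          (mem_univ r), card_univ, Fintype.card_fin]
      have h1 := (Finset.mem_erase.1 hi).1
      rw [if_neg h1, if_neg h1]
    · rw [← Finset.mul_prod_erase univ _ (mem_univ r), if_pos rfl, one_mul,
        ← Finset.mul_prod_erase (univ.erase r) _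
          (Finset.mem_erase.2 ⟨Ne.symm hr, mem_univ r₀⟩), if_neg (Ne.symm hr), if_pos rfl]
      congr 1
      rw [Finset.prod_congr rfl fun i hi => ?_, Finset.prod_const]
      · congr 1
        rw [Finset.card_erase_of_mem (Finset.mem_erase.2 ⟨Ne.symm hr, mem_univ r₀⟩),
          Finset.card_erase_of_mem (mem_univ r), card_univ, Fintype.card_fin]
        omega
      · simp only [Finset.mem_erase] at hi
        rw [if_neg hi.2.1, if_neg hi.1]

/-- **The inequality behind the theorems.** -/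
theorem exists_core_inequality (hT : T ≠ 0)
    (hG : ∀ j, IsGFunction (f j)) (hind : ∀ P : Fin m → ℚ[X], formSeries f P = 0 → P = 0)
    (hf : IsSolution (T.map (Int.castRingHom ℚ)) (A.map (Polynomial.map (Int.castRingHom ℚ))) f)
    (hm : 0 < m) {δ : ℕ} (hδT : T.natDegree ≤ δ) (hδA : ∀ i j, (A i j).natDegree ≤ δ) {K : ℕ}
    (hK : 3 ≤ K) :
    ∃ G : ℝ, 2 ≤ G ∧ ∀ a b : ℤ, a ≠ 0 → G * |(a : ℝ)| ≤ (b : ℝ) →
      (T.map (Int.castRingHom ℚ)).eval ((a : ℚ) / b) ≠ 0 →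
      (∀ j, HasVal (f j) ((a : ℝ) / b) (val (f j) ((a : ℝ) / b))) ∧
      ∃ p₀ : ℕ, ∀ p, p₀ ≤ p → ∀ h : Fin m → ℤ, h ≠ 0 → ∀ j,
        |val (f j) ((a : ℝ) / b)| ≤ G ^ p *
          ((b : ℝ) ^ ((K + 2 * δ) * (m - 1) * p) * |∑ l, (h l : ℝ) * val (f l) ((a : ℝ) / b)| +
          (1 + ∑ l, |(h l : ℝ)|) * ((b : ℝ) ^ ((K + 2 * δ) * (m - 1)) *
            (|(a : ℝ)| / b) ^ (m * K - 3)) ^ p) := by
  classical
  obtain ⟨C, hC, hbound, hden⟩ := FA.GFunctions.exists_gfunction_constant hG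
  obtain ⟨C', hC'⟩ := FA.GFunctions.galochkin_of_gfunctions hT hG hind hf
  obtain ⟨c, hc1, hc⟩ := exists_l1_solIter_le T A
  obtain ⟨GP, hGP1, haux⟩ := exists_auxiliary hC hbound hden hm (show 0 < K by omega)
  obtain ⟨d₀, hd₀⟩ : ∃ d₀, d₀ = K + 2 * δ := ⟨_, rfl⟩
  obtain ⟨g₀, hg₀⟩ : ∃ g₀, g₀ = m * K - 3 := ⟨_, rfl⟩
  obtain ⟨C'', hC''⟩ : ∃ C'' : ℝ, C'' = (C' : ℝ) + 1 := ⟨_, rfl⟩
  obtain ⟨U, hU⟩ : ∃ U : ℝ, U = 2 ^ d₀ * (4 * (l1 T + 1) ^ 2 * 2 ^ K * C'' ^ 3 * c ^ 2 * GP) :=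
    ⟨_, rfl⟩
  obtain ⟨W, hW⟩ : ∃ W : ℝ, W = 2 * ((l1 T + 1) ^ 2 * (C'' ^ 3 * (C * GP) * (2 * C) ^ 2)) *
    (2 * (C : ℝ)) ^ g₀ := ⟨_, rfl⟩
  obtain ⟨F, hF⟩ : ∃ F : ℝ, F = (m : ℝ) * (m ! : ℝ) := ⟨_, rfl⟩
  have hCr : (1 : ℝ) ≤ C := by exact_mod_cast hC
  have hT1 : (1 : ℝ) ≤ l1 T + 1 := le_add_of_nonneg_left (l1_nonneg T)
  have hC''1 : 1 ≤ C'' := hC'' ▸ le_add_of_nonneg_left (Nat.cast_nonneg C')
  have hU1 : 1 ≤ U := hU ▸ one_le_mul_of_one_le_of_one_le (one_le_pow₀ one_le_two)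
    (one_le_mul_of_one_le_of_one_le (one_le_mul_of_one_le_of_one_le (one_le_mul_of_one_le_of_one_le
      (one_le_mul_of_one_le_of_one_le (one_le_mul_of_one_le_of_one_le (by norm_num)
        (one_le_pow₀ hT1)) (one_le_pow₀ one_le_two)) (one_le_pow₀ hC''1)) (one_le_pow₀ hc1)) hGP1)
  have hW1 : 1 ≤ W := hW ▸ one_le_mul_of_one_le_of_one_le (one_le_mul_of_one_le_of_one_le
    one_le_two (one_le_mul_of_one_le_of_one_le (one_le_pow₀ hT1)
      (one_le_mul_of_one_le_of_one_le (one_le_mul_of_one_le_of_one_le (one_le_pow₀ hC''1)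
        (one_le_mul_of_one_le_of_one_le hCr hGP1)) (one_le_pow₀ (by linarith)))))
    (one_le_pow₀ (by linarith))
  have hm1 : (1 : ℝ) ≤ m := by exact_mod_cast hm
  have hF1 : 1 ≤ F := hF ▸ one_le_mul_of_one_le_of_one_le hm1
    (by exact_mod_cast Nat.factorial_pos m)
  have hUW : 1 ≤ U ^ (m - 1) * W := one_le_mul_of_one_le_of_one_le (one_le_pow₀ hU1) hW1
  refine ⟨F * (U ^ (m - 1) * W) + 4 * C + 2, by nlinarith, fun a b ha hab hTx => ?_⟩
  have ha1 : (1 : ℝ) ≤ |(a : ℝ)| := by exact_mod_cast Int.one_le_abs ha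
  have hb4 : (4 * (C : ℝ) + 2) * |(a : ℝ)| ≤ b :=
    le_trans (mul_le_mul_of_nonneg_right (by nlinarith) (abs_nonneg _)) hab
  have hb0 : (0 : ℝ) < b := by nlinarith
  have hb1 : (1 : ℝ) ≤ b := by nlinarith
  have hab' : |(a : ℝ)| ≤ b := by nlinarith
  have hx : |(a : ℝ) / b| = |(a : ℝ)| / b := by rw [abs_div, abs_of_pos hb0]
  have hCx : 2 * (C : ℝ) * |(a : ℝ) / b| ≤ 1 / 2 := by
    rw [hx, ← mul_div_assoc, div_le_iff₀ hb0]
    nlinarith
  have hval : ∀ j, HasVal (f j) ((a : ℝ) / b) (val (f j) ((a : ℝ) / b)) := fun j =>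
    hasVal_of_bound (hbound j) (by nlinarith [abs_nonneg ((a : ℝ) / b)])
  refine ⟨hval, ?_⟩
  obtain ⟨α, hα⟩ : ∃ α : ℚ, α = (a : ℚ) / b := ⟨_, rfl⟩
  have hbi : b ≠ 0 := fun h => by rw [h] at hb0; simp at hb0
  have hα0 : α ≠ 0 := hα ▸ div_ne_zero (Int.cast_ne_zero.2 ha) (Int.cast_ne_zero.2 hbi)
  rw [← hα] at hTx
  have hfj : ∀ j, f j ≠ 0 := fun j h => by
    have h1 := congrFun (hind (Pi.single j 1) (by
      rw [formSeries, Finset.sum_eq_single j (fun i _ hi => by simp [hi])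
        (fun hn => absurd (mem_univ j) hn), h, mul_zero])) j
    simp at h1
  obtain ⟨c₀, hc₀⟩ := shidlovskii_lemma hf hind hTx
  obtain ⟨o, ho⟩ := exists_completion_rowIter hf hfj hTx hα0 (natDegree_map_le.trans hδT)
    (fun i j => by rw [Matrix.map_apply]; exact natDegree_map_le.trans (hδA i j)) hm
  refine ⟨c₀ + o + 1, fun p hp h hh j => ?_⟩
  obtain ⟨P, hP0, hPd, hPl, hPdvd⟩ := haux p (by omega)
  obtain ⟨n, hn⟩ : ∃ n, n = K * p := ⟨_, rfl⟩
  obtain ⟨N, hN⟩ : ∃ N, N = (m * K - 1) * p := ⟨_, rfl⟩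
  have hNn : N + p = m * n := by
    obtain ⟨t, ht⟩ := Nat.exists_eq_add_of_le (show 1 ≤ m * K from Nat.mul_pos hm (by omega))
    rw [hN, hn, show m * (K * p) = (m * K) * p by ring, ht, Nat.add_sub_cancel_left]
    ring
  rw [← hn] at hPd
  rw [← hN] at hPdvd
  have hdet : (Matrix.of fun k l : Fin m => iterDeriv (T.map (Int.castRingHom ℚ))
      (A.map (Polynomial.map (Int.castRingHom ℚ))) (fun l => (P l).map (Int.castRingHom ℚ))
        k l).det ≠ 0 := by
    intro h0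
    have h1 := hc₀ n _ N (fun h => hP0 (funext fun l => Polynomial.map_injective _
      (Int.castRingHom ℚ).injective_int (by rw [congrFun h l]; simp)))
      (fun l => natDegree_map_le.trans (hPd l)) hPdvd h0
    have h2 : (m - 1) * n + n = m * n := by
      rw [← Nat.succ_mul, Nat.succ_eq_add_one, Nat.sub_add_cancel hm]
    have h3 : 2 * p ≤ n := hn ▸ Nat.mul_le_mul_right p (by omega)
    omega
  obtain ⟨κ, r₀, hκ, hκdet⟩ := ho n N _ (fun l => natDegree_map_le.trans (hPd l)) hPdvd hdet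
    (fun l => (h l : ℚ)) (fun h0 => hh (funext fun l => Int.cast_eq_zero.1 (congrFun h0 l)))
  have hκ2 : ∀ r, κ r ≤ 2 * p := fun r => by have := hκ r; omega
  choose D hD0 hDC hD using fun r => hC' (κ r)
  choose u hu using fun r => exists_integral_iterate hc hc1 hδT hδA (hD0 r) (hD r) P hPd
  have hDle : ∀ r, (D r : ℝ) ≤ C'' ^ (3 * p) := fun r => by
    refine le_trans (by exact_mod_cast hDC r : (D r : ℝ) ≤ (C' : ℝ) ^ (κ r + 1)) ?_
    refine (pow_le_pow_left₀ (Nat.cast_nonneg _)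
      (hC'' ▸ le_add_of_nonneg_right zero_le_one) _).trans
      (pow_le_pow_right₀ hC''1 ?_)
    have := hκ2 r
    omega
  have hdeg : ∀ r l, (u r l).natDegree ≤ d₀ * p := fun r l => (hu r l).2.1.trans (by
    rw [hn, hd₀, Nat.add_mul, show 2 * δ * p = 2 * p * δ by ring]
    exact Nat.add_le_add_left (Nat.mul_le_mul_right δ (hκ2 r)) _)
  have hbpos : 0 < b := by exact_mod_cast hb0
  choose z hz hzle using fun r l =>
    exists_int_eval (u r l) a b.toNat (by omega : b.toNat ≠ 0) (hdeg r l)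
  have hbn : ((b.toNat : ℕ) : ℝ) = (b : ℝ) := by
    have h1 : ((b.toNat : ℕ) : ℤ) = b := Int.toNat_of_nonneg (by
      exact_mod_cast hb0.le)
    exact_mod_cast h1
  simp only [hbn] at hz hzle
  obtain ⟨M, hMdef⟩ : ∃ M : Matrix (Fin m) (Fin m) ℤ, M = (Matrix.of z).updateRow r₀ h := ⟨_, rfl⟩
  -- the determinant is not zero
  have hMdet : M.det ≠ 0 := by
    intro h0
    have h1 : M.map (Int.castRingHom ℚ) =
        Matrix.diagonal (fun r => if r = r₀ then (1 : ℚ) else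
          (b : ℚ) ^ (d₀ * p) * ((D r : ℚ) / ((κ r)! : ℚ))) *
          (Matrix.of fun r l => (rowIter (T.map (Int.castRingHom ℚ))
            (A.map (Polynomial.map (Int.castRingHom ℚ))) (fun l => (P l).map (Int.castRingHom ℚ))
              (κ r) l).eval α).updateRow r₀ fun l => (h l : ℚ) := by
      ext r l
      rw [Matrix.diagonal_mul, Matrix.map_apply, hMdef, Matrix.updateRow_apply,
        Matrix.updateRow_apply]
      split_ifs with hr
      · simp
      · have h2 : (rowIter (T.map (Int.castRingHom ℚ)) (A.map (Polynomial.map (Int.castRingHom ℚ)))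
            (fun l => (P l).map (Int.castRingHom ℚ)) (κ r) l) =
            (rowIter T A P (κ r) l).map (Int.castRingHom ℚ) := by
          have h3 := congrFun
            (FA.GFunctions.vIter_map T (-A.transpose) (Int.castRingHom ℚ) 0 P (κ r)) l
          rw [show (-A.transpose).map (Polynomial.map (Int.castRingHom ℚ)) =
            -(A.map (Polynomial.map (Int.castRingHom ℚ))).transpose from
              Matrix.ext fun a b => by simp] at h3
          exact h3.symm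
        have h4 := congrArg (fun q : ℤ[X] => (q.map (Int.castRingHom ℚ)).eval α) (hu r l).1
        simp only [Polynomial.map_mul, Polynomial.map_natCast, eval_mul, eval_natCast] at h4
        have h5 : (z r l : ℚ) =
            (b : ℚ) ^ (d₀ * p) * ((u r l).map (Int.castRingHom ℚ)).eval α := by
          apply Rat.cast_injective (α := ℝ)
          rw [Rat.cast_intCast, hz, Rat.cast_mul, Rat.cast_pow, Rat.cast_intCast,
            ← eq_ratCast (Rat.castHom ℝ) (((u r l).map (Int.castRingHom ℚ)).eval α),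
            Polynomial.eval_map, Polynomial.hom_eval₂,
            RingHom.ext_int ((Rat.castHom ℝ).comp (Int.castRingHom ℚ)) (Int.castRingHom ℝ), hα,
            eq_ratCast, Rat.cast_div, Rat.cast_intCast, Rat.cast_intCast]
        simp only [Matrix.of_apply, eq_intCast, h5, h2]
        field_simp
        linear_combination -h4
    have h2 := congrArg Matrix.det h1
    rw [← RingHom.mapMatrix_apply, ← RingHom.map_det, h0, map_zero, Matrix.det_mul,
      Matrix.det_diagonal] at h2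
    refine hκdet ((mul_eq_zero.1 h2.symm).resolve_left (Finset.prod_ne_zero_iff.2 fun r _ => ?_))
    split_ifs
    · exact one_ne_zero
    · exact mul_ne_zero (pow_ne_zero _ (Int.cast_ne_zero.2 hbi)) (div_ne_zero
        (Nat.cast_ne_zero.2 (hD0 r).ne') (Nat.cast_ne_zero.2 (Nat.factorial_ne_zero _)))
  -- the entries and the forms
  have hl1P : 0 ≤ ∑ l, l1 (P l) := Finset.sum_nonneg fun _ _ => l1_nonneg _
  have hentry : ∀ r l, |(z r l : ℝ)| ≤ (U * (b : ℝ) ^ d₀) ^ p := fun r l => by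
    refine (hzle r l).trans ?_
    have h1 : l1 (u r l) ≤ (4 * (l1 T + 1) ^ 2 * 2 ^ K * C'' ^ 3 * c ^ 2 * GP) ^ p := by
      refine (hu r l).2.2.trans ?_
      have h2 : (κ r : ℝ) + 1 ≤ 4 ^ p := by
        have h3 : (κ r : ℝ) + 1 ≤ ((2 * p + 1 : ℕ) : ℝ) := by
          exact_mod_cast Nat.add_le_add_right (hκ2 r) 1
        refine h3.trans ?_
        have h4 : 2 * p + 1 ≤ 2 ^ (2 * p) := Nat.lt_two_pow_self
        calc ((2 * p + 1 : ℕ) : ℝ) ≤ ((2 ^ (2 * p) : ℕ) : ℝ) := Nat.cast_le.2 h4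
          _ = 4 ^ p := by push_cast; rw [pow_mul]; norm_num
      calc ((κ r : ℝ) + 1) * (l1 T + 1) ^ κ r * 2 ^ n * ((D r : ℝ) * c ^ κ r) * ∑ l, l1 (P l)
          ≤ 4 ^ p * (l1 T + 1) ^ (2 * p) * 2 ^ (K * p) * (C'' ^ (3 * p) * c ^ (2 * p)) *
              GP ^ p := by
            rw [← hn]
            gcongr
            · exact hκ2 r
            · exact hDle r
            · exact hκ2 r
        _ = _ := by simp only [mul_pow, ← pow_mul]; ring
    refine (mul_le_mul (pow_le_pow_left₀ (by positivity) (show |(a : ℝ)| + b ≤ 2 * b by linarith) _)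
      h1 (l1_nonneg _) (by positivity)).trans_eq ?_
    rw [hU]
    simp only [mul_pow, ← pow_mul]
    ring
  have hform : ∀ r, |∑ l, (z r l : ℝ) * val (f l) ((a : ℝ) / b)| ≤
      W ^ p * ((b : ℝ) ^ d₀ * (|(a : ℝ)| / b) ^ g₀) ^ p := by
    intro r
    obtain ⟨hzero, hcoef⟩ := form_iterate_bound hf hC hbound (fun l => (hu r l).1) hPdvd
    have hv := hasVal_form hval fun l => (u r l).map (Int.castRingHom ℚ)
    have hsum : ∑ l, (z r l : ℝ) * val (f l) ((a : ℝ) / b) = (b : ℝ) ^ (d₀ * p) *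
        ∑ l, Polynomial.eval₂ (Rat.castHom ℝ) ((a : ℝ) / b)
          ((u r l).map (Int.castRingHom ℚ)) * val (f l) ((a : ℝ) / b) := by
      rw [Finset.mul_sum]
      refine Finset.sum_congr rfl fun l _ => ?_
      rw [hz, Polynomial.eval₂_map,
        RingHom.ext_int ((Rat.castHom ℝ).comp (Int.castRingHom ℚ)) (Int.castRingHom ℝ)]
      ring
    have hg : g₀ * p ≤ N - κ r := by
      have h4 : g₀ * p + 2 * p = N := by
        rw [hg₀, hN, ← Nat.add_mul]
        congr 1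
        have : 3 ≤ m * K := le_trans hK (Nat.le_mul_of_pos_left K hm)
        omega
      have := hκ2 r
      omega
    have hb := abs_le_of_geometric (G₀ := g₀ * p) (by positivity) hv
      (fun i hi => hzero i (lt_of_lt_of_le hi hg)) hcoef hCx
    rw [hsum, abs_mul, abs_pow, abs_of_pos hb0]
    refine (mul_le_mul_of_nonneg_left hb (by positivity)).trans ?_
    rw [hx]
    calc (b : ℝ) ^ (d₀ * p) * (2 * ((l1 T + 1) ^ κ r *
          ((D r : ℝ) * (C * ∑ l, l1 (P l)) * (2 * C) ^ κ r)) *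
            (2 * C * (|(a : ℝ)| / b)) ^ (g₀ * p))
        ≤ (b : ℝ) ^ (d₀ * p) * (2 ^ p * ((l1 T + 1) ^ (2 * p) *
          (C'' ^ (3 * p) * ((C : ℝ) ^ p * GP ^ p) * (2 * C) ^ (2 * p))) *
            (2 * C * (|(a : ℝ)| / b)) ^ (g₀ * p)) := by
          gcongr
          · exact le_self_pow₀ one_le_two (by omega)
          · exact hκ2 r
          · exact hDle r
          · exact le_self_pow₀ hCr (by omega)
          · linarith
          · exact hκ2 r
      _ = _ := by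
          rw [hW]
          simp only [mul_pow, ← pow_mul]
          ring
  -- the determinant times the value
  obtain ⟨Λ, hΛ⟩ : ∃ Λ, Λ = ∑ l, (h l : ℝ) * val (f l) ((a : ℝ) / b) := ⟨_, rfl⟩
  rw [← hΛ]
  have hHh : ∀ l, |(h l : ℝ)| ≤ 1 + ∑ l, |(h l : ℝ)| := fun l =>
    (Finset.single_le_sum (f := fun l => |(h l : ℝ)|) (fun _ _ => abs_nonneg _)
      (mem_univ l)).trans (le_add_of_nonneg_left zero_le_one)
  obtain ⟨H, hH⟩ : ∃ H : ℝ, H = 1 + ∑ l, |(h l : ℝ)| := ⟨_, rfl⟩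
  rw [← hH] at hHh ⊢
  have hH0 : 0 ≤ H := hH ▸ add_nonneg zero_le_one (Finset.sum_nonneg fun _ _ => abs_nonneg _)
  obtain ⟨E, hE⟩ : ∃ E : ℝ, E = (U ^ (m - 1) * W) ^ p *
      ((b : ℝ) ^ (d₀ * (m - 1) * p) * |Λ| +
        H * ((b : ℝ) ^ (d₀ * (m - 1)) * (|(a : ℝ)| / b) ^ g₀) ^ p) := ⟨_, rfl⟩
  have hterm : ∀ r, |(M.adjugate j r : ℝ) * ∑ l, (M r l : ℝ) * val (f l) ((a : ℝ) / b)| ≤
      (m ! : ℝ) * E := by
    intro r
    have hadj := abs_adjugate_le M r₀ j r (V := (U * (b : ℝ) ^ d₀) ^ p)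
      (fun i hi l => by
        rw [hMdef, Matrix.updateRow_apply, if_neg hi]
        exact hentry i l)
      (fun l => by rw [hMdef, Matrix.updateRow_self]; exact hHh l)
    rw [abs_mul]
    rcases eq_or_ne r r₀ with rfl | hr
    · rw [if_pos rfl] at hadj
      rw [show ∑ l, (M r l : ℝ) * val (f l) ((a : ℝ) / b) = Λ by
        rw [hΛ, hMdef]
        simp [Matrix.updateRow_self]]
      refine (mul_le_mul_of_nonneg_right hadj (abs_nonneg _)).trans ?_
      rw [mul_assoc]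
      refine mul_le_mul_of_nonneg_left ?_ (Nat.cast_nonneg _)
      rw [hE, mul_add]
      refine le_add_of_le_of_nonneg ?_ (by positivity)
      calc ((U * (b : ℝ) ^ d₀) ^ p) ^ (m - 1) * |Λ|
          = (U ^ (m - 1) * 1) ^ p * ((b : ℝ) ^ (d₀ * (m - 1) * p) * |Λ|) := by
            simp only [mul_pow, ← pow_mul, one_pow]
            ring
        _ ≤ _ := by gcongr
    · rw [if_neg hr] at hadj
      rw [show ∑ l, (M r l : ℝ) * val (f l) ((a : ℝ) / b) =
          ∑ l, (z r l : ℝ) * val (f l) ((a : ℝ) / b) by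
        rw [hMdef]
        simp [Matrix.updateRow_ne hr]]
      refine (mul_le_mul hadj (hform r) (abs_nonneg _) (by positivity)).trans ?_
      rw [mul_assoc]
      refine mul_le_mul_of_nonneg_left ?_ (Nat.cast_nonneg _)
      have hm2 : 2 ≤ m := by
        by_contra h2
        exact hr (Fin.ext (by have := r.2; have := r₀.2; omega))
      obtain ⟨m', rfl⟩ : ∃ m', m = m' + 2 := ⟨m - 2, by omega⟩
      rw [hE, mul_add, Nat.add_sub_cancel, show m' + 2 - 1 = m' + 1 from rfl]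
      refine le_add_of_nonneg_of_le (by positivity) ?_
      calc H * ((U * (b : ℝ) ^ d₀) ^ p) ^ m' *
            (W ^ p * ((b : ℝ) ^ d₀ * (|(a : ℝ)| / b) ^ g₀) ^ p)
          = (U ^ m' * W) ^ p * (H * ((b : ℝ) ^ (d₀ * (m' + 1)) * (|(a : ℝ)| / b) ^ g₀) ^ p) := by
            simp only [mul_pow, ← pow_mul]
            ring
        _ ≤ _ := by
            gcongr
            omega
  have hid : (M.det : ℝ) * val (f j) ((a : ℝ) / b) =
      ∑ r, (M.adjugate j r : ℝ) * ∑ l, (M r l : ℝ) * val (f l) ((a : ℝ) / b) := by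
    simp only [Finset.mul_sum, ← mul_assoc]
    rw [Finset.sum_comm]
    simp only [← Finset.sum_mul]
    have h1 : ∀ l, ∑ r, (M.adjugate j r : ℝ) * (M r l : ℝ) =
        (((M.det • (1 : Matrix (Fin m) (Fin m) ℤ)) j l : ℤ) : ℝ) := fun l => by
      rw [← Matrix.adjugate_mul, Matrix.mul_apply]
      push_cast
      rfl
    simp only [h1, Matrix.smul_apply, Matrix.one_apply, smul_eq_mul, mul_ite, mul_one, mul_zero]
    rw [Finset.sum_eq_single j (fun l _ hl => by simp [Ne.symm hl])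
      (fun hn => absurd (mem_univ j) hn)]
    simp
  have hdet1 : (1 : ℝ) ≤ |(M.det : ℝ)| := by exact_mod_cast Int.one_le_abs hMdet
  have htot : |val (f j) ((a : ℝ) / b)| ≤ F * E := by
    refine (le_mul_of_one_le_left (abs_nonneg _) hdet1).trans ?_
    rw [← abs_mul, hid]
    refine (Finset.abs_sum_le_sum_abs _ _).trans
      ((Finset.sum_le_card_nsmul _ _ _ fun r _ => hterm r).trans_eq ?_)
    rw [card_univ, Fintype.card_fin, nsmul_eq_mul, hF]
    ring
  refine htot.trans ?_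
  rw [hE, ← hd₀, ← hg₀, ← mul_assoc]
  refine mul_le_mul_of_nonneg_right ?_ (by positivity)
  calc F * (U ^ (m - 1) * W) ^ p ≤ F ^ p * (U ^ (m - 1) * W) ^ p :=
        mul_le_mul_of_nonneg_right (le_self_pow₀ hF1 (by omega)) (by positivity)
    _ ≤ _ := by
        rw [← mul_pow]
        refine pow_le_pow_left₀ (by positivity) ?_ p
        linarith

/-- A root of `T` other than `0` is not of small absolute value. -/
theorem exists_no_small_root (hT : T ≠ 0) : ∃ R : ℝ, 0 ≤ R ∧ ∀ a b : ℤ, a ≠ 0 → b ≠ 0 →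
    R * |(a : ℝ)| < |(b : ℝ)| → (T.map (Int.castRingHom ℚ)).eval ((a : ℚ) / b) ≠ 0 := by
  classical
  have hTQ : T.map (Int.castRingHom ℚ) ≠ 0 :=
    (Polynomial.map_ne_zero_iff (Int.castRingHom ℚ).injective_int).2 hT
  refine ⟨∑ x ∈ (T.map (Int.castRingHom ℚ)).roots.toFinset, |((x : ℝ))⁻¹|,
    Finset.sum_nonneg fun _ _ => abs_nonneg _, fun a b ha hb hlt h0 => ?_⟩
  have hmem : (a : ℚ) / b ∈ (T.map (Int.castRingHom ℚ)).roots.toFinset :=
    Multiset.mem_toFinset.2 ((mem_roots hTQ).2 h0)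
  have h1 := Finset.single_le_sum (f := fun x : ℚ => |((x : ℝ))⁻¹|)
    (fun _ _ => abs_nonneg _) hmem
  have ha' : (0 : ℝ) < |(a : ℝ)| := abs_pos.2 (Int.cast_ne_zero.2 ha)
  rw [Rat.cast_div, Rat.cast_intCast, Rat.cast_intCast, inv_div, abs_div, div_le_iff₀ ha'] at h1
  exact (h1.trans_lt hlt).false

/-- **Linear independence of the values.** -/
theorem exists_values_independent (hT : T ≠ 0)
    (hG : ∀ j, IsGFunction (f j)) (hind : ∀ P : Fin m → ℚ[X], formSeries f P = 0 → P = 0)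
    (hf : IsSolution (T.map (Int.castRingHom ℚ)) (A.map (Polynomial.map (Int.castRingHom ℚ))) f) :
    ∃ q₀ : ℕ, ∀ a b : ℤ, a ≠ 0 → 0 < b → (q₀ : ℤ) * |a| ^ (m + 1) ≤ b →
      (∀ j, HasVal (f j) ((a : ℝ) / b) (val (f j) ((a : ℝ) / b))) ∧
        LinearIndependent ℚ fun j => val (f j) ((a : ℝ) / b) := by
  classical
  rcases Nat.eq_zero_or_pos m with hm | hm
  · subst hm
    exact ⟨0, fun a b _ _ _ => ⟨fun j => j.elim0, linearIndependent_empty_type⟩⟩
  obtain ⟨δ, hδT, hδA⟩ : ∃ δ, T.natDegree ≤ δ ∧ ∀ i j, (A i j).natDegree ≤ δ :=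
    ⟨T.natDegree + ∑ i, ∑ j, (A i j).natDegree, Nat.le_add_right _ _, fun i j =>
      le_trans (le_trans (Finset.single_le_sum (f := fun j => (A i j).natDegree)
        (fun _ _ => Nat.zero_le _) (mem_univ j)) (Finset.single_le_sum
        (f := fun i => ∑ j, (A i j).natDegree) (fun _ _ => Nat.zero_le _) (mem_univ i)))
        (Nat.le_add_left _ _)⟩
  obtain ⟨cst, hcst⟩ : ∃ cst, cst = 2 * δ * (m - 1) + 3 := ⟨_, rfl⟩
  obtain ⟨K, hK⟩ : ∃ K, K = (m + 1) * cst + 3 := ⟨_, rfl⟩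
  obtain ⟨G, hG2, hcore⟩ := exists_core_inequality hT hG hind hf hm hδT hδA (K := K) (by omega)
  obtain ⟨R, hR0, hR⟩ := exists_no_small_root hT
  obtain ⟨C, -, hbound, -⟩ := FA.GFunctions.exists_gfunction_constant hG
  have hf0 : f ⟨0, hm⟩ ≠ 0 := fun h => by
    have h1 := congrFun (hind (Pi.single ⟨0, hm⟩ 1) (by
      rw [formSeries, Finset.sum_eq_single (⟨0, hm⟩ : Fin m) (fun i _ hi => by simp [hi])
        (fun hn => absurd (mem_univ _) hn), h, mul_zero])) ⟨0, hm⟩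
    simp at h1
  obtain ⟨d, c, k, hd, hc, hlow⟩ := exists_val_lower (hbound _) hf0
  obtain ⟨q₀, hq₀⟩ : ∃ q₀, q₀ = ⌈2 * G + R + 1 / d⌉₊ + 1 := ⟨_, rfl⟩
  refine ⟨q₀, fun a b ha hb hab => ?_⟩
  have ha1 : (1 : ℝ) ≤ |(a : ℝ)| := by exact_mod_cast Int.one_le_abs ha
  have hbr : (0 : ℝ) < b := Int.cast_pos.2 hb
  have hab' : (q₀ : ℝ) * |(a : ℝ)| ^ (m + 1) ≤ b := by exact_mod_cast hab
  have hq : 2 * G + R + 1 / d + 1 ≤ q₀ := by
    rw [hq₀, Nat.cast_add, Nat.cast_one]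
    linarith [Nat.le_ceil (2 * G + R + 1 / d)]
  have hd1 : 0 < 1 / d := by positivity
  have hq1 : (q₀ : ℝ) * |(a : ℝ)| ≤ b :=
    le_trans (mul_le_mul_of_nonneg_left (le_self_pow₀ ha1 (by omega)) (Nat.cast_nonneg _)) hab'
  have hRlt : R * |(a : ℝ)| < |(b : ℝ)| := by
    rw [abs_of_pos hbr]
    nlinarith
  obtain ⟨hval, p₀, hp₀⟩ := hcore a b ha (by nlinarith) (hR a b ha hb.ne' hRlt)
  refine ⟨hval, ?_⟩
  have hxd : |(a : ℝ) / b| ≤ d := by
    rw [abs_div, abs_of_pos hbr, div_le_iff₀ hbr]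
    have h1 : 1 / d * |(a : ℝ)| ≤ b := le_trans (by nlinarith) hq1
    rw [one_div, inv_mul_le_iff₀ hd] at h1
    linarith
  have hy : val (f ⟨0, hm⟩) ((a : ℝ) / b) ≠ 0 := fun h0 => by
    have h1 := hlow _ hxd
    rw [h0, abs_zero] at h1
    have : 0 < c * |(a : ℝ) / b| ^ k := mul_pos hc (pow_pos (abs_pos.2 (div_ne_zero
      (Int.cast_ne_zero.2 ha) hbr.ne')) k)
    linarith
  -- the ratio is at most one half
  obtain ⟨e, he⟩ : ∃ e, e = K - cst := ⟨_, rfl⟩
  have hKc : cst + 3 ≤ K := hK ▸ Nat.add_le_add_right (Nat.le_mul_of_pos_left cst (by omega)) 3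
  have hexp : m * K - 3 = (K + 2 * δ) * (m - 1) + e := by
    obtain ⟨m', rfl⟩ : ∃ m', m = m' + 1 := ⟨m - 1, by omega⟩
    have e1 : (m' + 1) * K = m' * K + K := by ring
    have e2 : (K + 2 * δ) * m' = m' * K + 2 * δ * m' := by ring
    rw [Nat.add_sub_cancel, e1, e2]
    rw [Nat.add_sub_cancel] at hcst
    omega
  have he1 : m * K ≤ (m + 1) * e := by
    have h2 : (m + 1) * e + (m + 1) * cst = (m + 1) * K := by
      rw [← Nat.mul_add, he, Nat.sub_add_cancel (by omega)]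
    have h3 : (m + 1) * K = m * K + K := by ring
    omega
  have hhalf : G * ((b : ℝ) ^ ((K + 2 * δ) * (m - 1)) * (|(a : ℝ)| / b) ^ (m * K - 3)) ≤ 1 / 2 := by
    have h2 : 2 * G * |(a : ℝ)| ^ (m * K - 3) ≤ (b : ℝ) ^ e := by
      refine le_trans ?_ (pow_le_pow_left₀ (by positivity) hab' e)
      rw [mul_pow, ← pow_mul]
      exact mul_le_mul ((by linarith : 2 * G ≤ (q₀ : ℝ)).trans
        (le_self_pow₀ (by linarith) (by omega))) (pow_le_pow_right₀ ha1 (by omega))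
        (by positivity) (by positivity)
    have h3 : G * ((b : ℝ) ^ ((K + 2 * δ) * (m - 1)) * (|(a : ℝ)| / b) ^ (m * K - 3)) =
        G * |(a : ℝ)| ^ (m * K - 3) / (b : ℝ) ^ e := by
      rw [hexp, div_pow, pow_add (b : ℝ)]
      field_simp
    rw [h3, div_le_iff₀ (by positivity)]
    linarith
  rw [Fintype.linearIndependent_iff]
  intro g hg
  obtain ⟨D, hD⟩ := IsLocalization.exist_integer_multiples_of_finite (nonZeroDivisors ℤ) g
  choose h hh using hD
  have hD0 : ((D : ℤ) : ℚ) ≠ 0 := Int.cast_ne_zero.2 (nonZeroDivisors.coe_ne_zero D)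
  have hhg : ∀ j, (h j : ℚ) = (D : ℤ) * g j := fun j => by
    rw [← zsmul_eq_mul]
    exact (hh j)
  have hrel : ∑ j, (h j : ℝ) * val (f j) ((a : ℝ) / b) = 0 := by
    have h1 : ∀ j, (h j : ℝ) * val (f j) ((a : ℝ) / b) =
        ((D : ℤ) : ℝ) * (g j • val (f j) ((a : ℝ) / b)) := fun j => by
      rw [← Rat.cast_intCast (α := ℝ) (h j), hhg, Rat.smul_def]
      push_cast
      ring
    rw [Finset.sum_congr rfl fun j _ => h1 j, ← Finset.mul_sum, hg, mul_zero]
  suffices h0 : h = 0 by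
    intro j
    have h1 := hhg j
    rw [h0, Pi.zero_apply, Int.cast_zero] at h1
    exact (mul_eq_zero.1 h1.symm).resolve_left hD0
  by_contra hne
  have hlim : Tendsto (fun p : ℕ => (1 + ∑ l, |(h l : ℝ)|) * (1 / 2 : ℝ) ^ p) atTop (𝓝 0) := by
    simpa using (tendsto_pow_atTop_nhds_zero_of_lt_one (show (0 : ℝ) ≤ 1 / 2 by norm_num)
      (by norm_num)).const_mul (1 + ∑ l, |(h l : ℝ)|)
  refine hy (abs_nonpos_iff.1 (ge_of_tendsto hlim ?_))
  filter_upwards [eventually_ge_atTop p₀] with p hp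
  have h1 := hp₀ p hp h hne ⟨0, hm⟩
  rw [hrel, abs_zero, mul_zero, zero_add, mul_left_comm, ← mul_pow] at h1
  refine h1.trans (mul_le_mul_of_nonneg_left (pow_le_pow_left₀ ?_ hhalf p)
    (add_nonneg zero_le_one (Finset.sum_nonneg fun _ _ => abs_nonneg _)))
  positivity

/-- **The measure of linear independence.** -/
theorem exists_linear_form_measure (hT : T ≠ 0)
    (hG : ∀ j, IsGFunction (f j)) (hind : ∀ P : Fin m → ℚ[X], formSeries f P = 0 → P = 0)
    (hf : IsSolution (T.map (Int.castRingHom ℚ)) (A.map (Polynomial.map (Int.castRingHom ℚ))) f)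
    (hm : 0 < m) {ε : ℝ} (hε : 0 < ε) :
    ∃ q₀ : ℕ, ∀ q : ℕ, q₀ ≤ q →
      (∀ j, HasVal (f j) (1 / q : ℝ) (val (f j) (1 / q : ℝ))) ∧
      ∃ c : ℝ, 0 < c ∧ ∀ h : Fin m → ℤ, h ≠ 0 → ∀ H : ℝ, (∀ j, |(h j : ℝ)| ≤ H) →
        c * H ^ (-((m : ℝ) - 1 + ε)) ≤ |∑ j, (h j : ℝ) * val (f j) (1 / q : ℝ)| := by
  classical
  obtain ⟨δ, hδT, hδA⟩ : ∃ δ, T.natDegree ≤ δ ∧ ∀ i j, (A i j).natDegree ≤ δ :=
    ⟨T.natDegree + ∑ i, ∑ j, (A i j).natDegree, Nat.le_add_right _ _, fun i j =>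
      le_trans (le_trans (Finset.single_le_sum (f := fun j => (A i j).natDegree)
        (fun _ _ => Nat.zero_le _) (mem_univ j)) (Finset.single_le_sum
        (f := fun i => ∑ j, (A i j).natDegree) (fun _ _ => Nat.zero_le _) (mem_univ i)))
        (Nat.le_add_left _ _)⟩
  obtain ⟨cst, hcst⟩ : ∃ cst, cst = 2 * δ * (m - 1) + 3 := ⟨_, rfl⟩
  obtain ⟨t, ht⟩ := exists_nat_ge ((((m : ℝ) - 1) * (cst + 1 + 2 * δ) + 1) / ε)
  obtain ⟨K, hK⟩ : ∃ K, K = cst + 2 + t := ⟨_, rfl⟩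
  obtain ⟨e, he⟩ : ∃ e, e = K - cst - 1 := ⟨_, rfl⟩
  obtain ⟨D₁, hD₁⟩ : ∃ D₁, D₁ = (K + 2 * δ) * (m - 1) + 1 := ⟨_, rfl⟩
  have hμ : (D₁ : ℝ) ≤ ((m : ℝ) - 1 + ε) * e := by
    have h1 : (e : ℝ) = 1 + t := by
      rw [show e = 1 + t by omega]
      push_cast
      rfl
    rw [div_le_iff₀ hε] at ht
    rw [hD₁, h1]
    push_cast [Nat.cast_sub (show 1 ≤ m from hm), hK]
    nlinarith
  obtain ⟨G, hG2, hcore⟩ := exists_core_inequality hT hG hind hf hm hδT hδA (K := K) (by omega)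
  obtain ⟨R, hR0, hR⟩ := exists_no_small_root hT
  obtain ⟨C, -, hbound, -⟩ := FA.GFunctions.exists_gfunction_constant hG
  have hf0 : f ⟨0, hm⟩ ≠ 0 := fun h => by
    have h1 := congrFun (hind (Pi.single ⟨0, hm⟩ 1) (by
      rw [formSeries, Finset.sum_eq_single (⟨0, hm⟩ : Fin m) (fun i _ hi => by simp [hi])
        (fun hn => absurd (mem_univ _) hn), h, mul_zero])) ⟨0, hm⟩
    simp at h1
  obtain ⟨d, c, k, hd, hc, hlow⟩ := exists_val_lower (hbound _) hf0
  refine ⟨⌈2 * G + R + 1 / d⌉₊ + 1, fun q hq => ?_⟩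
  have hd1 : 0 < 1 / d := by positivity
  have hq' : 2 * G + R + 1 / d + 1 ≤ q := by
    refine le_trans ?_ (Nat.cast_le.2 hq)
    push_cast
    linarith [Nat.le_ceil (2 * G + R + 1 / d)]
  have hqr : (0 : ℝ) < q := by linarith
  obtain ⟨hval, p₀, hp₀⟩ := hcore 1 q one_ne_zero (by push_cast; rw [abs_one]; linarith)
    (hR 1 q one_ne_zero (Int.natCast_ne_zero.2 (by rintro rfl; simp at hqr)) (by
      push_cast
      rw [abs_one, abs_of_pos hqr]
      linarith))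
  push_cast at hval hp₀
  simp only [abs_one] at hp₀
  refine ⟨hval, ?_⟩
  obtain ⟨y, hy⟩ : ∃ y, y = |val (f ⟨0, hm⟩) (1 / q : ℝ)| := ⟨_, rfl⟩
  have hy0 : 0 < y := hy ▸ lt_of_lt_of_le (mul_pos hc (pow_pos (abs_pos.2 (by positivity)) k))
    (hlow _ (by
      rw [abs_div, abs_one, abs_of_pos hqr, div_le_iff₀ hqr]
      have h1 : 1 / d ≤ q := by linarith
      rw [div_le_iff₀ hd] at h1
      linarith))
  obtain ⟨B, hB⟩ : ∃ B : ℝ, B = (q : ℝ) ^ e := ⟨_, rfl⟩
  have hB1 : 1 < B := hB ▸ one_lt_pow₀ (by linarith) (by omega)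
  obtain ⟨M, hM⟩ : ∃ M : ℝ, M = (B ^ p₀ + 2 * B / y) * ((m : ℝ) + 1) := ⟨_, rfl⟩
  obtain ⟨E, hE⟩ : ∃ E : ℝ, E = (m : ℝ) - 1 + ε := ⟨_, rfl⟩
  have hm1 : (1 : ℝ) ≤ m := by exact_mod_cast hm
  have hE0 : 0 < E := by rw [hE]; linarith
  have hM1 : 1 ≤ M := by
    have h1 : 0 ≤ 2 * B / y := by positivity
    rw [hM]
    nlinarith [one_le_pow₀ (n := p₀) hB1.le]
  refine ⟨y / (2 * M ^ E), by positivity, fun h hh H hH => ?_⟩
  have hH1 : 1 ≤ H := by
    obtain ⟨l, hl⟩ := Function.ne_iff.1 hh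
    exact le_trans (by exact_mod_cast Int.one_le_abs hl) (hH l)
  obtain ⟨Hh, hHh⟩ : ∃ Hh : ℝ, Hh = 1 + ∑ l, |(h l : ℝ)| := ⟨_, rfl⟩
  have hHh1 : 1 ≤ Hh := hHh ▸ le_add_of_nonneg_right (Finset.sum_nonneg fun _ _ => abs_nonneg _)
  have hHhle : Hh ≤ ((m : ℝ) + 1) * H := by
    have h1 := Finset.sum_le_card_nsmul univ (fun l => |(h l : ℝ)|) H fun l _ => hH l
    rw [card_univ, Fintype.card_fin, nsmul_eq_mul] at h1
    rw [hHh]
    linarith
  -- the least admissible `p`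
  have hex : ∃ p, p₀ ≤ p ∧ 2 * Hh ≤ y * B ^ p := by
    obtain ⟨p, hp⟩ := pow_unbounded_of_one_lt (2 * Hh / y) hB1
    refine ⟨max p p₀, le_max_right _ _, ?_⟩
    rw [div_lt_iff₀ hy0] at hp
    nlinarith [pow_le_pow_right₀ hB1.le (le_max_left p p₀)]
  obtain ⟨p, hp⟩ : ∃ p, p = Nat.find hex := ⟨_, rfl⟩
  obtain ⟨hpp, hpB⟩ : p₀ ≤ p ∧ 2 * Hh ≤ y * B ^ p := hp ▸ Nat.find_spec hex
  have hBp : B ^ p ≤ M * H := by
    have hstep : B ^ p ≤ (B ^ p₀ + 2 * B / y) * Hh := by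
      rcases eq_or_lt_of_le hpp with hpe | hlt
      · rw [← hpe]
        calc B ^ p₀ = B ^ p₀ * 1 := (mul_one _).symm
          _ ≤ _ := mul_le_mul (le_add_of_nonneg_right (by positivity)) hHh1 zero_le_one
                (by positivity)
      · obtain ⟨p', rfl⟩ : ∃ p', p = p' + 1 := ⟨p - 1, by omega⟩
        have h1 : y * B ^ p' < 2 * Hh := by
          by_contra hle
          exact Nat.find_min hex (hp ▸ Nat.lt_succ_self p') ⟨by omega, not_lt.1 hle⟩
        rw [← lt_div_iff₀' hy0] at h1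
        calc B ^ (p' + 1) ≤ B * (2 * Hh / y) := by
              rw [pow_succ']
              exact mul_le_mul_of_nonneg_left h1.le (by positivity)
          _ = (2 * B / y) * Hh := by ring
          _ ≤ _ := by gcongr; exact le_add_of_nonneg_left (by positivity)
    refine hstep.trans ?_
    rw [hM, mul_assoc]
    exact mul_le_mul_of_nonneg_left hHhle (by positivity)
  have hGq : G ≤ (q : ℝ) := by linarith
  have h1 := hp₀ p hpp h hh ⟨0, hm⟩
  rw [← hy, ← hHh] at h1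
  obtain ⟨L, hL⟩ : ∃ L, L = |∑ j, (h j : ℝ) * val (f j) (1 / q : ℝ)| := ⟨_, rfl⟩
  rw [← hL] at h1 ⊢
  have hL0 : 0 ≤ L := hL ▸ abs_nonneg _
  have hexp : m * K - 3 = (K + 2 * δ) * (m - 1) + (e + 1) := by
    obtain ⟨m', rfl⟩ : ∃ m', m = m' + 1 := ⟨m - 1, by omega⟩
    have e1 : (m' + 1) * K = m' * K + K := by ring
    have e2 : (K + 2 * δ) * m' = m' * K + 2 * δ * m' := by ring
    rw [Nat.add_sub_cancel, e1, e2]
    rw [Nat.add_sub_cancel] at hcst
    omega
  have h2 : y ≤ ((q : ℝ) ^ D₁) ^ p * L + Hh / B ^ p := by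
    refine h1.trans ?_
    rw [mul_add, ← mul_assoc]
    refine add_le_add (mul_le_mul_of_nonneg_right ?_ hL0) ?_
    · rw [pow_mul _ ((K + 2 * δ) * (m - 1)) p, ← mul_pow, hD₁, pow_succ']
      exact pow_le_pow_left₀ (by positivity) (mul_le_mul_of_nonneg_right hGq (by positivity)) p
    · rw [mul_left_comm, ← mul_pow, div_eq_mul_inv Hh, ← inv_pow]
      refine mul_le_mul_of_nonneg_left (pow_le_pow_left₀ (by positivity) ?_ p) (by linarith)
      rw [hexp, div_pow, one_pow, pow_add (q : ℝ), pow_succ, hB]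
      field_simp
      nlinarith
  have h3 : y / 2 ≤ ((q : ℝ) ^ D₁) ^ p * L := by
    have h4 : Hh / B ^ p ≤ y / 2 := by
      rw [div_le_iff₀ (by positivity)]
      linarith
    linarith
  have hBp0 : 0 ≤ B ^ p := by positivity
  have h5 : ((q : ℝ) ^ D₁) ^ p ≤ (M * H) ^ E := by
    have h6 : ((q : ℝ) ^ D₁) ^ p ≤ (B ^ p) ^ E := by
      rw [← pow_mul, hB, ← pow_mul, ← Real.rpow_natCast, ← Real.rpow_natCast (q : ℝ) (e * p),
        ← Real.rpow_mul hqr.le]
      refine Real.rpow_le_rpow_of_exponent_le (by linarith) ?_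
      push_cast
      rw [hE]
      nlinarith [Nat.cast_nonneg (α := ℝ) p]
    exact h6.trans (Real.rpow_le_rpow hBp0 hBp hE0.le)
  rw [← hE, Real.rpow_neg (by linarith), ← div_eq_mul_inv, div_div,
    div_le_iff₀ (by positivity)]
  rw [Real.mul_rpow (by linarith) (by linarith)] at h5
  nlinarith [mul_le_mul_of_nonneg_right h5 hL0]

end FA.GFunctionValues
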